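import Fermat.Agent.AdeleDuality.Finite
import Mathlib.Analysis.SpecialFunctions.Complex.Circle
import Mathlib.NumberTheory.NumberField.CanonicalEmbedding.Basic
import Mathlib.NumberTheory.NumberField.Norm
import Mathlib.RingTheory.Trace.Basic

/-!
# The standard character of the adeles

Modulo the field an adele has integral finite part; the standard character is `exp (- 2 π i t)` of
the trace `t` of its infinite part then.
-/

set_option autoImplicit false
set_option linter.unusedSectionVars false
set_option linter.style.haveILetI false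

noncomputable section

open NumberField NumberField.InfinitePlace NumberField.InfinitePlace.Completion IsDedekindDomain
open Filter Topology
open scoped Classical

namespace FA.AdeleDual

universe u

variable {K : Type u} [Field K] [NumberField K]

/-- `exp (- 2 π i t)`. -/
def expNeg : AddChar ℝ Circle where
  toFun t := AddCircle.toCircle ((-t : ℝ) : AddCircle (1 : ℝ))
  map_zero_eq_one' := by rw [neg_zero, AddCircle.coe_zero, AddCircle.toCircle_zero]
  map_add_eq_mul' s t := by rw [neg_add, AddCircle.coe_add, AddCircle.toCircle_add]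

theorem expNeg_apply (t : ℝ) : expNeg t = AddCircle.toCircle ((-t : ℝ) : AddCircle (1 : ℝ)) := rfl

theorem continuous_expNeg : Continuous expNeg :=
  AddCircle.continuous_toCircle.comp ((AddCircle.continuous_mk' 1).comp continuous_neg)

theorem expNeg_eq_one_iff {t : ℝ} : expNeg t = 1 ↔ ∃ n : ℤ, (n : ℝ) = t := by
  rw [expNeg_apply, ← AddCircle.toCircle_zero (T := (1 : ℝ)),
    (AddCircle.injective_toCircle one_ne_zero).eq_iff, AddCircle.coe_eq_zero_iff]
  exact ⟨fun ⟨n, hn⟩ => ⟨-n, by simp at hn ⊢; linarith⟩, fun ⟨n, hn⟩ => ⟨-n, by simp [hn]⟩⟩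

theorem expNeg_intCast (n : ℤ) : expNeg (n : ℝ) = 1 := expNeg_eq_one_iff.2 ⟨n, rfl⟩

variable (K) in
/-- The trace of the infinite adeles. -/
def traceInf : InfiniteAdeleRing K →+ ℝ :=
  AddMonoidHom.mk' (fun y => ∑ w : InfinitePlace K, (w.mult : ℝ) * (extensionEmbedding w (y w)).re)
    fun y z => by
      rw [← Finset.sum_add_distrib]
      exact Finset.sum_congr rfl fun w _ => by
        rw [show (y + z) w = y w + z w from rfl, map_add, Complex.add_re, mul_add]

theorem traceInf_apply (y : InfiniteAdeleRing K) :
    traceInf K y = ∑ w : InfinitePlace K, (w.mult : ℝ) * (extensionEmbedding w (y w)).re := rfl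

theorem continuous_traceInf : Continuous (traceInf K) :=
  continuous_finsetSum _ fun w _ => continuous_const.mul (Complex.continuous_re.comp
    ((isometry_extensionEmbedding w).continuous.comp (continuous_apply w)))

theorem extensionEmbedding_algebraMap (w : InfinitePlace K) (x : K) :
    extensionEmbedding w (algebraMap K (InfiniteAdeleRing K) x w) = w.embedding x := by
  simp

/-- **On the field it is the trace.** -/
theorem traceInf_algebraMap (x : K) :
    traceInf K (algebraMap K (InfiniteAdeleRing K) x) = ((Algebra.trace ℚ K x : ℚ) : ℝ) := by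
  have h := trace_eq_sum_embeddings (K := ℚ) (L := K) ℂ (x := x)
  rw [Fintype.sum_equiv (RingHom.equivRatAlgHom K ℂ).symm (fun σ : K →ₐ[ℚ] ℂ => σ x)
    (fun σ : K →+* ℂ => σ x) fun _ => rfl] at h
  have h2 := congrArg Complex.re h
  rw [eq_ratCast, Complex.ratCast_re, Complex.re_sum,
    ← Finset.sum_fiberwise Finset.univ InfinitePlace.mk (fun σ : K →+* ℂ => (σ x).re)] at h2
  rw [h2, traceInf_apply]
  refine Finset.sum_congr rfl fun w _ => ?_
  rw [extensionEmbedding_algebraMap, Finset.sum_congr rfl fun σ hσ => show (σ x).re =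
      (w.embedding x).re by
    rw [← (Finset.mem_filter.1 hσ).2]
    rcases embedding_mk_eq σ with e | e
    · rw [e]
    · rw [e]; exact (Complex.conj_re _).symm,
    Finset.sum_const, card_filter_mk_eq, nsmul_eq_mul]

theorem traceInf_integer (r : 𝓞 K) :
    ∃ n : ℤ, traceInf K (algebraMap K (InfiniteAdeleRing K) (r : K)) = n :=
  ⟨Algebra.trace ℤ (𝓞 K) r, by
    rw [traceInf_algebraMap, ← Algebra.coe_trace_int, Rat.cast_intCast]⟩

/-- The integral elements of the field. -/
theorem exists_integer_of_mem {k : K} (h : algebraMap K (FiniteAdeleRing (𝓞 K) K) k ∈ finInt K) :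
    ∃ r : 𝓞 K, (r : K) = k :=
  HeightOneSpectrum.mem_integers_of_valuation_le_one (R := 𝓞 K) K k fun v => by
    rw [← FA.QuadFormsNF.valued_algebraMap v]
    exact mem_finInt.1 h v

variable (K) in
/-- The value at an adele through a representative. -/
def stdVal (a : AdeleRing (𝓞 K) K) (k : K) : Circle :=
  expNeg (traceInf K a.1 - traceInf K (algebraMap K (InfiniteAdeleRing K) k))

theorem stdVal_eq {a : AdeleRing (𝓞 K) K} {k k' : K}
    (h : a.2 - algebraMap K (FiniteAdeleRing (𝓞 K) K) k ∈ finInt K)
    (h' : a.2 - algebraMap K (FiniteAdeleRing (𝓞 K) K) k' ∈ finInt K) :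
    stdVal K a k = stdVal K a k' := by
  obtain ⟨r, hr⟩ := exists_integer_of_mem (k := k' - k) (by
    rw [map_sub]
    simpa using sub_mem h h')
  obtain ⟨n, hn⟩ := traceInf_integer r
  rw [hr, map_sub, map_sub] at hn
  rw [stdVal, stdVal, show traceInf K a.1 - traceInf K (algebraMap K (InfiniteAdeleRing K) k) =
    (traceInf K a.1 - traceInf K (algebraMap K (InfiniteAdeleRing K) k')) + n by linarith,
    AddChar.map_add_eq_mul, expNeg_intCast, mul_one]

variable (K) in
/-- **The standard character of the adeles.** -/
def stdChar : AddChar (AdeleRing (𝓞 K) K) Circle where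
  toFun a := stdVal K a (exists_sub_mem a.2).choose
  map_zero_eq_one' := by
    rw [stdVal_eq (exists_sub_mem _).choose_spec (k' := 0) (by
      rw [map_zero, sub_zero]
      exact zero_mem (finInt K)), stdVal, map_zero, map_zero,
      show (0 : AdeleRing (𝓞 K) K).1 = 0 from rfl, map_zero, sub_zero, AddChar.map_zero_eq_one]
  map_add_eq_mul' a b := by
    rw [stdVal_eq (exists_sub_mem _).choose_spec
      (k' := (exists_sub_mem a.2).choose + (exists_sub_mem b.2).choose) (by
        rw [map_add, show (a + b).2 = a.2 + b.2 from rfl, add_sub_add_comm]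
        exact add_mem (exists_sub_mem a.2).choose_spec (exists_sub_mem b.2).choose_spec),
      stdVal, stdVal, stdVal, map_add, map_add, show (a + b).1 = a.1 + b.1 from rfl, map_add,
      add_sub_add_comm, AddChar.map_add_eq_mul]

/-- It is computed by any representative. -/
theorem stdChar_eq {a : AdeleRing (𝓞 K) K} {k : K}
    (h : a.2 - algebraMap K (FiniteAdeleRing (𝓞 K) K) k ∈ finInt K) :
    stdChar K a = expNeg (traceInf K a.1 - traceInf K (algebraMap K (InfiniteAdeleRing K) k)) :=
  stdVal_eq (exists_sub_mem a.2).choose_spec h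

/-- With integral finite part it is `exp (- 2 π i t)`. -/
theorem stdChar_of_mem {a : AdeleRing (𝓞 K) K} (h : a.2 ∈ finInt K) :
    stdChar K a = expNeg (traceInf K a.1) := by
  rw [stdChar_eq (k := 0) (by rwa [map_zero, sub_zero]), map_zero, map_zero, sub_zero]

/-- **It is trivial on the field.** -/
theorem stdChar_algebraMap (k : K) : stdChar K (algebraMap K (AdeleRing (𝓞 K) K) k) = 1 := by
  rw [stdChar_eq (k := k) (by
    rw [show (algebraMap K (AdeleRing (𝓞 K) K) k).2 = algebraMap K _ k from rfl, sub_self]
    exact zero_mem (finInt K)),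
    show (algebraMap K (AdeleRing (𝓞 K) K) k).1 = algebraMap K _ k from rfl, sub_self,
    AddChar.map_zero_eq_one]

variable (K) in
/-- **It is continuous.** -/
theorem continuous_stdChar : Continuous (stdChar K) := by
  refine continuous_iff_continuousAt.2 fun a => ?_
  have hO : IsOpen {b : AdeleRing (𝓞 K) K | (b - a).2 ∈ finInt K} :=
    ((isOpen_finInt K).preimage continuous_snd).preimage (continuous_id.sub continuous_const)
  have hc : Continuous fun b : AdeleRing (𝓞 K) K =>
      stdChar K a * expNeg (traceInf K (b - a).1) :=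
    continuous_const.mul (continuous_expNeg.comp (continuous_traceInf.comp
      (continuous_fst.comp (continuous_id.sub continuous_const))))
  refine hc.continuousAt.congr (Filter.mem_of_superset (hO.mem_nhds (show (a - a).2 ∈ finInt K by
    rw [sub_self]; exact zero_mem (finInt K))) fun b hb => ?_)
  show stdChar K a * expNeg _ = stdChar K b
  rw [← stdChar_of_mem hb, ← AddChar.map_add_eq_mul, add_sub_cancel]

end FA.AdeleDual

end
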