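import Fermat.Agent.CompactAbelian.Duality
import Mathlib.Topology.Algebra.Group.OpenMapping
import Mathlib.Topology.Baire.LocallyCompactRegular
import Mathlib.Algebra.Group.AddChar

/-!
# Pairings given by an additive character of a topological ring

A continuous bijective pairing of a locally compact sigma-compact ring with its dual is an
isomorphism of topological groups, by the open mapping theorem.
-/

set_option autoImplicit false
set_option linter.unusedSectionVars false
set_option linter.style.haveILetI false

noncomputable section

open Topology Filter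
open scoped Classical

namespace FA.AdeleDual

variable {R : Type*} [CommRing R] [TopologicalSpace R] [IsTopologicalRing R]

/-- The character `x ↦ ψ (a x)`. -/
def pairChar (ψ : AddChar R Circle) (hc : Continuous ψ) (a : R) :
    PontryaginDual (Multiplicative R) :=
  (⟨{ toFun := fun x => ψ (a * x.toAdd)
      map_one' := by rw [toAdd_one, mul_zero, AddChar.map_zero_eq_one]
      map_mul' := fun x y => by rw [toAdd_mul, mul_add, AddChar.map_add_eq_mul] },
    hc.comp (continuous_const.mul continuous_toAdd)⟩ : Multiplicative R →ₜ* Circle)

theorem pairChar_apply (ψ : AddChar R Circle) (hc : Continuous ψ) (a x : R) :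
    pairChar ψ hc a (Multiplicative.ofAdd x) = ψ (a * x) := rfl

/-- The pairing as a homomorphism to the dual. -/
def pairHom (ψ : AddChar R Circle) (hc : Continuous ψ) :
    Multiplicative R →* PontryaginDual (Multiplicative R) :=
  MonoidHom.mk' (fun a => pairChar ψ hc a.toAdd) fun a b => PontryaginDual.ext fun x => by
    show ψ ((a * b).toAdd * x.toAdd) = ψ (a.toAdd * x.toAdd) * ψ (b.toAdd * x.toAdd)
    rw [toAdd_mul, add_mul, AddChar.map_add_eq_mul]

theorem pairHom_apply (ψ : AddChar R Circle) (hc : Continuous ψ) (a x : R) :
    pairHom ψ hc (Multiplicative.ofAdd a) (Multiplicative.ofAdd x) = ψ (a * x) := rfl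

theorem continuous_pairHom (ψ : AddChar R Circle) (hc : Continuous ψ) :
    Continuous (pairHom ψ hc) :=
  (ContinuousMonoidHom.isInducing_toContinuousMap _ _).continuous_iff.2
    (ContinuousMap.continuous_of_continuous_uncurry _
      (hc.comp ((continuous_toAdd.comp continuous_fst).mul
        (continuous_toAdd.comp continuous_snd))))

/-- Nondegenerate and with every continuous character: bijective. -/
theorem pairHom_bijective {ψ : AddChar R Circle} (hc : Continuous ψ)
    (hnd : ∀ a, (∀ x, ψ (a * x) = 1) → a = 0)
    (hsurj : ∀ χ : AddChar R Circle, Continuous χ → ∃ a, ∀ x, χ x = ψ (a * x)) :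
    Function.Bijective (pairHom ψ hc) := by
  refine ⟨(injective_iff_map_eq_one _).2 fun a ha => Multiplicative.toAdd.injective
    (hnd a.toAdd fun x => DFunLike.congr_fun ha (Multiplicative.ofAdd x)), fun φ => ?_⟩
  obtain ⟨a, ha⟩ := hsurj
    { toFun := fun x => φ (Multiplicative.ofAdd x)
      map_zero_eq_one' := map_one φ
      map_add_eq_mul' := fun x y => map_mul φ (Multiplicative.ofAdd x) (Multiplicative.ofAdd y) }
    ((map_continuous φ).comp continuous_ofAdd)
  exact ⟨Multiplicative.ofAdd a, PontryaginDual.ext fun x => (ha x.toAdd).symm⟩

/-- **A bijective pairing is an isomorphism of topological groups.** -/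
def selfDual [LocallyCompactSpace R] [SigmaCompactSpace R] {ψ : AddChar R Circle}
    (hc : Continuous ψ) (hb : Function.Bijective (pairHom ψ hc)) :
    Multiplicative R ≃ₜ* PontryaginDual (Multiplicative R) :=
  let e := MulEquiv.ofBijective (pairHom ψ hc) hb
  haveI : SigmaCompactSpace (Multiplicative R) := ‹SigmaCompactSpace R›
  { e with
    continuous_toFun := continuous_pairHom ψ hc
    continuous_invFun := (Equiv.toHomeomorphOfContinuousOpen e.toEquiv (continuous_pairHom ψ hc)
      (MonoidHom.isOpenMap_of_sigmaCompact (pairHom ψ hc) hb.2
        (continuous_pairHom ψ hc))).symm.continuous }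

end FA.AdeleDual

end
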