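import Fermat.Agent.AdeleDuality.Duality
import Fermat.Agent.AdeleDuality.Pairing

/-!
# The duality of the infinite completions

The characters of the infinite adeles are those of the trace of their multiples.
-/

set_option autoImplicit false
set_option linter.unusedSectionVars false
set_option linter.style.haveILetI false

noncomputable section

open NumberField NumberField.InfinitePlace NumberField.InfinitePlace.Completion IsDedekindDomain
open Filter Topology Module
open scoped Classical Real

set_option maxHeartbeats 400000

namespace FA.AdeleDual

universe u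

variable {K : Type u} [Field K] [NumberField K]

/-- **The characters of the reals.** -/
theorem exists_eq_expNeg {f : AddChar ℝ Circle} (hf : Continuous f) :
    ∃ c : ℝ, ∀ t, f t = expNeg (c * t) := by
  obtain ⟨q, hq⟩ := (AddCircle.homeomorphCircle (T := (1 : ℝ)) one_ne_zero).surjective (f 1)
  obtain ⟨s, rfl⟩ := QuotientAddGroup.mk_surjective q
  have hs : f 1 = expNeg (-s) := by
    rw [expNeg_apply, neg_neg, ← hq, AddCircle.homeomorphCircle_apply]
  let g : AddChar ℝ Circle :=
    { toFun := fun t => f t * expNeg (s * t)
      map_zero_eq_one' := by rw [mul_zero, AddChar.map_zero_eq_one, AddChar.map_zero_eq_one, mul_one]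
      map_add_eq_mul' := fun x y => by
        rw [mul_add, AddChar.map_add_eq_mul, AddChar.map_add_eq_mul, mul_mul_mul_comm] }
  obtain ⟨n, hn⟩ := exists_int_of_periodic (f := g)
    (hf.mul (continuous_expNeg.comp (continuous_const.mul continuous_id))) (by
      show f 1 * expNeg (s * 1) = 1
      rw [hs, mul_one, ← AddChar.map_add_eq_mul, neg_add_cancel, AddChar.map_zero_eq_one])
  refine ⟨n - s, fun t => ?_⟩
  have h1 : f t * expNeg (s * t) = expNeg (n * t) := hn t
  rw [sub_mul, AddChar.map_sub_eq_div, ← h1, mul_div_cancel_right]

theorem traceInf_dual_mul (c : ℝ) (i : Free.ChooseBasisIndex ℤ (𝓞 K)) (t : ℝ)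
    (j : Free.ChooseBasisIndex ℤ (𝓞 K)) :
    traceInf K ((realScalar c * algebraMap K (InfiniteAdeleRing K) (traceDual K i)) *
      (realScalar t * algebraMap K (InfiniteAdeleRing K) (integralBasis K j))) =
      if j = i then c * t else 0 := by
  rw [mul_mul_mul_comm, mul_assoc, traceInf_realScalar_mul, traceInf_realScalar_mul, ← map_mul,
    traceInf_algebraMap, ← Algebra.traceForm_apply, traceDual,
    LinearMap.BilinForm.apply_dualBasis_left]
  split_ifs <;> simp

/-- **The characters of the infinite adeles.** -/
theorem exists_eq_expNeg_mul {f : AddChar (InfiniteAdeleRing K) Circle} (hc : Continuous f) :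
    ∃ β : InfiniteAdeleRing K, ∀ y, f y = expNeg (traceInf K (β * y)) := by
  have hg : ∀ i, ∃ c : ℝ, ∀ t : ℝ,
      f (realScalar t * algebraMap K (InfiniteAdeleRing K) (integralBasis K i)) =
        expNeg (c * t) := fun i => by
    let g : AddChar ℝ Circle :=
      { toFun := fun t => f (realScalar t * algebraMap K (InfiniteAdeleRing K) (integralBasis K i))
        map_zero_eq_one' := by
          rw [show realScalar (K := K) 0 = 0 from infAdele_ext fun w => by
            show embAt w (realScalar (K := K) 0) = embAt w 0
            rw [map_zero, embAt_realScalar, Complex.ofReal_zero], zero_mul, AddChar.map_zero_eq_one]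
        map_add_eq_mul' := fun s t => by rw [realScalar_add, add_mul, AddChar.map_add_eq_mul] }
    exact exists_eq_expNeg (f := g) (hc.comp (continuous_realScalar.mul continuous_const))
  choose c hc' using hg
  refine ⟨∑ i, realScalar (c i) * algebraMap K (InfiniteAdeleRing K) (traceDual K i), fun y => ?_⟩
  conv_lhs => rw [← fromCoord_coord y]
  conv_rhs => rw [← fromCoord_coord y]
  rw [fromCoord, Finset.mul_sum, map_sum (traceInf K), addChar_sum, addChar_sum]
  refine Finset.prod_congr rfl fun j _ => ?_
  rw [hc', Finset.sum_mul, map_sum (traceInf K)]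
  simp only [traceInf_dual_mul, Finset.sum_ite_eq, Finset.mem_univ, if_true]

/-- An element of a completion as an infinite adele. -/
def singleInf (w : InfinitePlace K) : w.Completion →+ InfiniteAdeleRing K :=
  AddMonoidHom.mk' (fun z => (Pi.single (M := fun u : InfinitePlace K => u.Completion) w z))
    fun z z' => Pi.single_add (f := fun u : InfinitePlace K => u.Completion) w z z'

theorem singleInf_self (w : InfinitePlace K) (z : w.Completion) : singleInf w z w = z :=
  Pi.single_eq_same (M := fun u : InfinitePlace K => u.Completion) w z

theorem singleInf_of_ne {w u : InfinitePlace K} (h : u ≠ w) (z : w.Completion) :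
    singleInf w z u = 0 :=
  Pi.single_eq_of_ne (M := fun u : InfinitePlace K => u.Completion) h z

theorem continuous_singleInf (w : InfinitePlace K) : Continuous (singleInf w) :=
  continuous_single (A := fun u : InfinitePlace K => u.Completion) w

theorem mul_singleInf (y : InfiniteAdeleRing K) (w : InfinitePlace K) (z : w.Completion) :
    y * singleInf w z = singleInf w (y w * z) :=
  funext fun u => by
    show y u * singleInf w z u = singleInf w (y w * z) u
    by_cases h : u = w
    · subst h
      rw [singleInf_self, singleInf_self]
    · rw [singleInf_of_ne h, singleInf_of_ne h, mul_zero]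

theorem traceInf_singleInf (w : InfinitePlace K) (z : w.Completion) :
    traceInf K (singleInf w z) = (w.mult : ℝ) * (extensionEmbedding w z).re := by
  rw [traceInf_apply, Finset.sum_eq_single w, singleInf_self]
  · intro u _ hu
    rw [singleInf_of_ne hu, map_zero, Complex.zero_re, mul_zero]
  · simp

/-- **The standard character of a completion at an infinite place.** -/
def infChar (w : InfinitePlace K) : AddChar w.Completion Circle :=
  (stdChar K).compAddMonoidHom ((inInf K).comp (singleInf w))

theorem infChar_apply (w : InfinitePlace K) (z : w.Completion) :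
    infChar w z = expNeg ((w.mult : ℝ) * (extensionEmbedding w z).re) := by
  rw [show infChar w z = stdChar K (inInf K (singleInf w z)) from rfl, stdChar_inInf,
    traceInf_singleInf]

theorem continuous_infChar (w : InfinitePlace K) : Continuous (infChar w) :=
  (continuous_stdChar K).comp (continuous_inInf.comp (continuous_singleInf w))

theorem infChar_nondegenerate {w : InfinitePlace K} {a : w.Completion}
    (h : ∀ z, infChar w (a * z) = 1) : a = 0 := by
  by_contra ha
  have h1 := h (a⁻¹ * realScalar (K := K) (1 / (2 * w.mult)) w)
  rw [mul_inv_cancel_left₀ ha, infChar_apply, extensionEmbedding_realScalar, Complex.ofReal_re] at h1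
  obtain ⟨n, hn⟩ := expNeg_eq_one_iff.1 h1
  have hm : (w.mult : ℝ) ≠ 0 := Nat.cast_ne_zero.2 mult_ne_zero
  have h2 : (n : ℝ) = 1 / 2 := by rw [hn]; field_simp
  have h3 : (2 * n : ℤ) = 1 := by
    have : ((2 * n : ℤ) : ℝ) = ((1 : ℤ) : ℝ) := by push_cast; linarith
    exact_mod_cast this
  omega

theorem exists_eq_infChar {w : InfinitePlace K} {χ : AddChar w.Completion Circle}
    (hc : Continuous χ) : ∃ a, ∀ z, χ z = infChar w (a * z) := by
  let p : InfiniteAdeleRing K →+ w.Completion := AddMonoidHom.mk' (fun y => y w) fun _ _ => rfl
  obtain ⟨β, hβ⟩ := exists_eq_expNeg_mul (f := χ.compAddMonoidHom p)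
    (hc.comp (continuous_apply w))
  refine ⟨β w, fun z => ?_⟩
  have h1 : χ (singleInf w z w) = expNeg (traceInf K (β * singleInf w z)) := hβ (singleInf w z)
  rw [singleInf_self, mul_singleInf, traceInf_singleInf] at h1
  rw [h1, infChar_apply]

theorem infPair_bijective (w : InfinitePlace K) :
    Function.Bijective (pairHom (infChar w) (continuous_infChar w)) :=
  pairHom_bijective _ (fun _ h => infChar_nondegenerate h) fun _ hc => exists_eq_infChar hc

theorem sigmaCompact_infCompletion (w : InfinitePlace K) : SigmaCompactSpace w.Completion :=
  (isometry_extensionEmbedding w).isClosedEmbedding.sigmaCompactSpace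

/-- **An infinite completion is its own dual.** -/
def infSelfDual (w : InfinitePlace K) :
    Multiplicative w.Completion ≃ₜ* PontryaginDual (Multiplicative w.Completion) :=
  haveI := sigmaCompact_infCompletion w
  selfDual (continuous_infChar w) (infPair_bijective w)

end FA.AdeleDual

end
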