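import Fermat.Agent.AdeleDuality.Fundamental
import Fermat.Agent.AdeleDuality.InfLocal
import Fermat.Agent.HeckeFE.Poisson
import Mathlib.Analysis.InnerProductSpace.PiL2
import Mathlib.Analysis.Distribution.SchwartzSpace.Basic

/-!
# Decay along the lattice of integers

The coordinates in the integral basis as a Euclidean space, and the summability of negative powers
of the norm over translates of the lattice.
-/

set_option autoImplicit false
set_option linter.unusedSectionVars false
set_option linter.style.haveILetI false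

noncomputable section

open NumberField IsDedekindDomain
open Filter Topology Module
open scoped Classical

set_option maxHeartbeats 400000

namespace FA.AdeleDual

universe u

variable {K : Type u} [Field K] [NumberField K]

variable (K) in
/-- The coordinate space. -/
abbrev CoordSpace : Type u := EuclideanSpace ℝ (Free.ChooseBasisIndex ℤ (𝓞 K))

variable (K) in
/-- The infinite part in coordinates. -/
def coordE : InfiniteAdeleRing K →+ CoordSpace K :=
  AddMonoidHom.mk' (fun y => WithLp.toLp 2 (coord y)) fun y z => by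
    rw [coord_add]; rfl

theorem coordE_apply (y : InfiniteAdeleRing K) (i : Free.ChooseBasisIndex ℤ (𝓞 K)) :
    coordE K y i = coord y i := rfl

theorem continuous_coordE : Continuous (coordE K) :=
  (PiLp.continuous_toLp 2 _).comp continuous_coord

theorem coord_fromCoord (t : Free.ChooseBasisIndex ℤ (𝓞 K) → ℝ) : coord (fromCoord K t) = t := by
  set y := (InfiniteAdeleRing.ringEquiv_mixedSpace K).symm
    (∑ i, t i • mixedEmbedding.latticeBasis K i)
  have h : coord y = t := funext fun i => by
    rw [coord, RingEquiv.apply_symm_apply, Basis.repr_sum_self]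
  rw [← h, fromCoord_coord]

/-- The weight `(1 + ‖z‖) ^ (-2 d)`. -/
def weight (z : CoordSpace K) : ℝ :=
  ((1 + ‖z‖) ^ (2 * Fintype.card (Free.ChooseBasisIndex ℤ (𝓞 K))))⁻¹

theorem weight_nonneg (z : CoordSpace K) : 0 ≤ weight z := by unfold weight; positivity

/-- A translation multiplies the weight by a bounded factor. -/
theorem weight_add_le (z v : CoordSpace K) :
    weight (z + v) ≤ (1 + ‖z‖) ^ (2 * Fintype.card (Free.ChooseBasisIndex ℤ (𝓞 K))) * weight v := by
  set N := 2 * Fintype.card (Free.ChooseBasisIndex ℤ (𝓞 K))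
  have h1 : 1 + ‖v‖ ≤ (1 + ‖z‖) * (1 + ‖z + v‖) := by
    have h2 : ‖v‖ ≤ ‖z + v‖ + ‖z‖ := by simpa using norm_sub_le (z + v) z
    nlinarith [norm_nonneg z, norm_nonneg (z + v)]
  have h3 : (1 + ‖v‖) ^ N ≤ (1 + ‖z‖) ^ N * (1 + ‖z + v‖) ^ N := by
    rw [← mul_pow]
    exact pow_le_pow_left₀ (by positivity) h1 N
  rw [weight, weight, ← div_eq_mul_inv, le_div_iff₀ (by positivity), inv_mul_le_iff₀ (by positivity)]
  exact h3.trans_eq (mul_comm _ _)

theorem norm_schwartz_le (h : SchwartzMap (CoordSpace K) ℂ) :
    ∃ C : ℝ, 0 ≤ C ∧ ∀ z, ‖h z‖ ≤ C * weight z := by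
  set N := 2 * Fintype.card (Free.ChooseBasisIndex ℤ (𝓞 K))
  refine ⟨2 ^ N * ((Finset.Iic (N, 0)).sup fun m => SchwartzMap.seminorm ℂ m.1 m.2) h,
    by positivity, fun z => ?_⟩
  have h1 := SchwartzMap.one_add_le_sup_seminorm_apply (𝕜 := ℂ) (m := (N, 0)) le_rfl le_rfl h z
  rw [norm_iteratedFDeriv_zero] at h1
  rw [weight, ← div_eq_mul_inv, le_div_iff₀ (by positivity), mul_comm]
  exact h1

/-- **Negative powers are summable over the lattice.** -/
theorem summable_weight :
    Summable fun n : Free.ChooseBasisIndex ℤ (𝓞 K) → ℤ =>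
      weight (WithLp.toLp 2 fun i => (n i : ℝ) : CoordSpace K) := by
  have h1 : Summable fun k : ℤ => ((1 + |(k : ℝ)|) ^ 2)⁻¹ := by
    refine Summable.of_norm_bounded_eventually
      ((Real.summable_one_div_int_pow (p := 2)).2 one_lt_two) ?_
    refine Filter.eventually_cofinite.2 ((Set.finite_singleton (0 : ℤ)).subset fun k hk => ?_)
    by_contra hk0
    apply hk
    show ‖((1 + |(k : ℝ)|) ^ 2)⁻¹‖ ≤ 1 / (k : ℝ) ^ 2
    have hk' : (0 : ℝ) < |(k : ℝ)| := abs_pos.2 (Int.cast_ne_zero.2 hk0)
    rw [Real.norm_of_nonneg (by positivity), one_div, ← sq_abs (k : ℝ)]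
    exact inv_anti₀ (by positivity) (pow_le_pow_left₀ hk'.le (by linarith) 2)
  refine Summable.of_nonneg_of_le (fun n => weight_nonneg _) (fun n => ?_)
    (FA.HeckeFE.summable_pi_prod (fun k => by positivity) h1)
  rw [weight, Finset.prod_inv_distrib]
  refine inv_anti₀ (Finset.prod_pos fun i _ => by positivity) ?_
  rw [pow_mul, ← Finset.card_univ, ← Finset.prod_const]
  refine Finset.prod_le_prod (fun i _ => by positivity) fun i _ => ?_
  refine pow_le_pow_left₀ (by positivity) (add_le_add le_rfl ?_) 2
  have := PiLp.norm_apply_le (WithLp.toLp 2 (fun i => (n i : ℝ)) : CoordSpace K) i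
  simpa using this

theorem coordE_integer (r : 𝓞 K) : coordE K (algebraMap K (InfiniteAdeleRing K) (r : K)) =
    WithLp.toLp 2 fun i => (((RingOfIntegers.basis K).repr r i : ℤ) : ℝ) := by
  ext i
  rw [coordE_apply, coord_integer]

/-- **Summability over a translate of the integers.** -/
theorem summable_weight_translate (k₀ : K) :
    Summable ((Set.range fun r : 𝓞 K => k₀ + (r : K)).indicator
      fun k => weight (coordE K (algebraMap K (InfiniteAdeleRing K) k))) := by
  have hinj : Function.Injective fun r : 𝓞 K => k₀ + (r : K) := fun a b h =>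
    RingOfIntegers.ext (add_left_cancel h)
  rw [← hinj.summable_iff fun k hk => Set.indicator_of_notMem hk _]
  have hs := (((RingOfIntegers.basis K).equivFun.toEquiv.summable_iff).2
    (summable_weight (K := K))).mul_left
      ((1 + ‖coordE K (algebraMap K (InfiniteAdeleRing K) k₀)‖) ^
        (2 * Fintype.card (Free.ChooseBasisIndex ℤ (𝓞 K))))
  refine hs.of_nonneg_of_le (fun r => ?_) fun r => ?_
  · rw [Function.comp_apply, Set.indicator_of_mem (Set.mem_range_self r)]
    exact weight_nonneg _
  · rw [Function.comp_apply, Set.indicator_of_mem (Set.mem_range_self r), map_add, map_add]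
    refine (weight_add_le _ _).trans (le_of_eq ?_)
    rw [coordE_integer]
    rfl

end FA.AdeleDual

end
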