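import Fermat.Agent.AdeleDuality.Lattice
import Fermat.Agent.IdeleClass.Discrete
import Fermat.Agent.CompactAbelian.Annihilator

/-!
# The dual of the adeles modulo the field

Every continuous character of the adeles trivial on the field is the standard one composed with the
multiplication by a field element.  The field is discrete and cocompact, so the quotient is a
connected compact group with dual the field.
-/

set_option autoImplicit false
set_option linter.unusedSectionVars false
set_option linter.style.haveILetI false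

noncomputable section

open NumberField NumberField.InfinitePlace NumberField.InfinitePlace.Completion IsDedekindDomain
open Filter Topology Module
open scoped Classical Real

namespace FA.AdeleDual

universe u

variable {K : Type u} [Field K] [NumberField K]

local notation "𝐀" => AdeleRing (𝓞 K) K
local notation "𝐊" => algebraMap K (AdeleRing (𝓞 K) K)

variable (K) in
/-- An infinite adele as an adele. -/
def inInf : InfiniteAdeleRing K →+ 𝐀 :=
  AddMonoidHom.mk' (fun y => (y, (0 : FiniteAdeleRing (𝓞 K) K))) fun y z =>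
    Prod.ext rfl (add_zero (0 : FiniteAdeleRing (𝓞 K) K)).symm

variable (K) in
/-- A finite adele as an adele. -/
def inFin : FiniteAdeleRing (𝓞 K) K →+ 𝐀 :=
  AddMonoidHom.mk' (fun u => ((0 : InfiniteAdeleRing K), u)) fun u u' =>
    Prod.ext (add_zero (0 : InfiniteAdeleRing K)).symm rfl

theorem inInf_add_inFin (a : 𝐀) : inInf K a.1 + inFin K a.2 = a :=
  Prod.ext (add_zero a.1) (zero_add a.2)

theorem continuous_inInf : Continuous (inInf K) := continuous_id.prodMk continuous_const

theorem continuous_inFin : Continuous (inFin K) := continuous_const.prodMk continuous_id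

theorem mul_inInf (c : K) (y : InfiniteAdeleRing K) :
    𝐊 c * inInf K y = inInf K (algebraMap K (InfiniteAdeleRing K) c * y) :=
  Prod.ext rfl (mul_zero (algebraMap K (FiniteAdeleRing (𝓞 K) K) c))

theorem mul_inFin (c : K) (u : FiniteAdeleRing (𝓞 K) K) :
    𝐊 c * inFin K u = inFin K (algebraMap K (FiniteAdeleRing (𝓞 K) K) c * u) :=
  Prod.ext (mul_zero (algebraMap K (InfiniteAdeleRing K) c)) rfl

theorem stdChar_inInf (y : InfiniteAdeleRing K) : stdChar K (inInf K y) = expNeg (traceInf K y) :=
  stdChar_of_mem (zero_mem (finInt K))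

/-- A character of the adeles trivial on the field kills a multiple of the integral adeles. -/
theorem exists_kills {χ : AddChar 𝐀 Circle} (hc : Continuous χ) :
    ∃ m : 𝓞 K, m ≠ 0 ∧ ∀ u ∈ finInt K,
      χ (inFin K (algebraMap K (FiniteAdeleRing (𝓞 K) K) (m : K) * u)) = 1 := by
  have hW : (fun u => χ (inFin K u)) ⁻¹' Circle.centeredArc (π / 2) ∈ 𝓝 0 := by
    refine ((Circle.isOpen_centeredArc (π / 2)).preimage (hc.comp continuous_inFin)).mem_nhds ?_
    show χ (inFin K 0) ∈ Circle.centeredArc (π / 2)
    rw [map_zero, AddChar.map_zero_eq_one, Circle.mem_centeredArc (by linarith [Real.pi_pos])]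
    simp [Real.pi_pos]
  obtain ⟨m, hm, hmW⟩ := exists_mul_subset hW
  refine ⟨m, hm, fun u hu => Circle.eq_one_of_forall_pow_mem_centeredArc_pi_div_two fun k hk => ?_⟩
  rw [← AddChar.map_nsmul_eq_pow, ← map_nsmul, ← mul_smul_comm]
  exact hmW _ (nsmul_mem hu k)

theorem stdChar_mul_inFin {α : K}
    (hα : ∀ r : 𝓞 K, expNeg (traceInf K (algebraMap K (InfiniteAdeleRing K) (α * r))) = 1)
    {u : FiniteAdeleRing (𝓞 K) K} (hu : u ∈ finInt K) :
    stdChar K (𝐊 α * inFin K u) = 1 := by
  obtain ⟨p, q, hq, hpq⟩ := IsFractionRing.div_surjective (A := 𝓞 K) α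
  have hq0 : q ≠ 0 := nonZeroDivisors.ne_zero hq
  obtain ⟨r, hr⟩ := exists_integer_sub hq0 hu
  have hqK : (q : K) ≠ 0 := RingOfIntegers.coe_ne_zero_iff.2 hq0
  have hpq' : α * (q : K) = (p : K) := by rw [← hpq]; exact div_mul_cancel₀ _ hqK
  rw [mul_inFin, stdChar_eq (k := α * r) (mem_finInt.2 fun v => ?_),
    show (inFin K (algebraMap K (FiniteAdeleRing (𝓞 K) K) α * u)).1 = 0 from rfl, map_zero,
    zero_sub, AddChar.map_neg_eq_inv, hα, inv_one]
  show Valued.v (algebraMap K (v.adicCompletion K) α * u v -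
    algebraMap K (v.adicCompletion K) (α * r)) ≤ 1
  rw [map_mul, ← mul_sub, map_mul]
  refine (mul_le_mul' le_rfl (hr v)).trans ?_
  rw [← map_mul, ← map_mul, hpq']
  exact valued_integer_le_one v p

/-- **Every character of the adeles trivial on the field comes from the standard one.** -/
theorem exists_unique_eq_stdChar {χ : AddChar 𝐀 Circle} (hc : Continuous χ)
    (hK : ∀ k : K, χ (𝐊 k) = 1) : ∃! a : K, ∀ x, χ x = stdChar K (𝐊 a * x) := by
  obtain ⟨m, hm, hkill⟩ := exists_kills hc
  have hmK : (m : K) ≠ 0 := RingOfIntegers.coe_ne_zero_iff.2 hm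
  set χ' : AddChar 𝐀 Circle := χ.compAddMonoidHom (AddMonoidHom.mulLeft (𝐊 (m : K))) with hχ'
  have hχ'a : ∀ x, χ' x = χ (𝐊 (m : K) * x) := fun x => rfl
  have hc' : Continuous χ' := hc.comp (continuous_const.mul continuous_id)
  have hK' : ∀ k : K, χ' (𝐊 k) = 1 := fun k => by rw [hχ'a, ← map_mul]; exact hK _
  have hfin : ∀ u ∈ finInt K, χ' (inFin K u) = 1 := fun u hu => by
    rw [hχ'a, mul_inFin]
    exact hkill u hu
  set f : AddChar (InfiniteAdeleRing K) Circle := χ'.compAddMonoidHom (inInf K)
  have hdecomp : ∀ (x : 𝐀) (k : K), x.2 - algebraMap K _ k ∈ finInt K →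
      χ' x = f (x.1 - algebraMap K (InfiniteAdeleRing K) k) := fun x k hk => by
    conv_lhs => rw [← sub_add_cancel x (𝐊 k)]
    rw [AddChar.map_add_eq_mul, hK', mul_one, ← inInf_add_inFin (x - 𝐊 k), AddChar.map_add_eq_mul,
      hfin (x - 𝐊 k).2 hk, mul_one]
    rfl
  obtain ⟨α, hα⟩ := exists_eq_expNeg_traceInf (f := f) (hc'.comp continuous_inInf) fun r => by
    have h1 := hdecomp (𝐊 (r : K)) 0 (by
      rw [map_zero, sub_zero]
      exact mem_finInt.2 fun v => valued_integer_le_one v r)
    rw [map_zero, sub_zero, hK'] at h1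
    exact h1.symm
  have hαr : ∀ r : 𝓞 K, expNeg (traceInf K (algebraMap K (InfiniteAdeleRing K) (α * r))) = 1 :=
    fun r => by
      rw [map_mul, ← hα]
      have h1 := hdecomp (𝐊 (r : K)) 0 (by
        rw [map_zero, sub_zero]
        exact mem_finInt.2 fun v => valued_integer_le_one v r)
      rw [map_zero, sub_zero, hK'] at h1
      exact h1.symm
  have hmain : ∀ x, χ' x = stdChar K (𝐊 α * x) := fun x => by
    obtain ⟨k, hk⟩ := exists_sub_mem x.2
    rw [hdecomp x k hk, hα]
    conv_rhs => rw [← sub_add_cancel x (𝐊 k), mul_add, AddChar.map_add_eq_mul, ← map_mul 𝐊 α k,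
      stdChar_algebraMap, mul_one, ← inInf_add_inFin (x - 𝐊 k), mul_add, AddChar.map_add_eq_mul,
      stdChar_mul_inFin hαr (u := (x - 𝐊 k).2) hk, mul_one, mul_inInf, stdChar_inInf]
    rfl
  refine ⟨α / m, fun x => ?_, fun b hb => ?_⟩
  · have h2 := hmain (𝐊 (m : K)⁻¹ * x)
    rw [hχ'a, ← mul_assoc, ← mul_assoc, ← map_mul, ← map_mul, mul_inv_cancel₀ hmK, map_one,
      one_mul, ← div_eq_mul_inv] at h2
    exact h2
  · by_contra hne
    set c := b - α / m with hc0
    have hd : (0 : ℝ) < finrank ℚ K := Nat.cast_pos.2 finrank_pos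
    have h1 : ∀ x, stdChar K (𝐊 c * x) = 1 := fun x => by
      have h2 := hmain (𝐊 (m : K)⁻¹ * x)
      rw [hχ'a, ← mul_assoc, ← mul_assoc, ← map_mul, ← map_mul, mul_inv_cancel₀ hmK, map_one,
        one_mul, ← div_eq_mul_inv, hb x] at h2
      rw [map_sub, sub_mul, AddChar.map_sub_eq_div, h2, div_self']
    have h3 := h1 (inInf K (realScalar (1 / (2 * finrank ℚ K)) *
      algebraMap K (InfiniteAdeleRing K) c⁻¹))
    rw [mul_inInf, stdChar_inInf, mul_left_comm, ← map_mul, mul_inv_cancel₀ (sub_ne_zero.2 hne),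
      traceInf_realScalar_mul, traceInf_algebraMap,
      show Algebra.trace ℚ K (1 : K) = (finrank ℚ K : ℚ) by
        rw [← map_one (algebraMap ℚ K), Algebra.trace_algebraMap, nsmul_one]] at h3
    obtain ⟨n, hn⟩ := expNeg_eq_one_iff.1 h3
    have h4 : (n : ℝ) = 1 / 2 := by
      rw [hn, Rat.cast_natCast]
      field_simp
    have h5 : (2 * n : ℤ) = 1 := by
      have : ((2 * n : ℤ) : ℝ) = ((1 : ℤ) : ℝ) := by push_cast; linarith
      exact_mod_cast this
    omega

/-! ### Discrete and cocompact -/

variable (K) in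
/-- The principal adeles. -/
abbrev principalAdeles : AddSubgroup 𝐀 := AdeleRing.principalSubgroup (𝓞 K) K

theorem mem_principalAdeles {x : 𝐀} : x ∈ principalAdeles K ↔ ∃ k : K, 𝐊 k = x := Iff.rfl

instance t2Space_adeleRing : T2Space 𝐀 := by
  refine IsTopologicalAddGroup.t2Space_iff_zero_closed.2 ?_
  have e : ({0} : Set 𝐀) =
      (⋂ v : HeightOneSpectrum (𝓞 K), {x : 𝐀 | x.2 v = 0}) ∩
        ⋂ w : InfinitePlace K, {x : 𝐀 | x.1 w = 0} := by
    ext x
    simp only [Set.mem_singleton_iff, Set.mem_inter_iff, Set.mem_iInter, Set.mem_ofPred_eq]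
    exact ⟨fun h => h ▸ ⟨fun v => rfl, fun w => rfl⟩,
      fun h => Prod.ext (funext h.2) (FiniteAdeleRing.ext _ h.1)⟩
  rw [e]
  exact (isClosed_iInter fun v => isClosed_eq (FA.Ideles.continuous_finComp v)
    continuous_const).inter (isClosed_iInter fun w => isClosed_eq (FA.Ideles.continuous_infComp w)
      continuous_const)

variable (K) in
/-- **The field is discrete in the adeles.** -/
theorem discreteTopology_principalAdeles : DiscreteTopology (principalAdeles K) := by
  refine discreteTopology_iff_isOpen_singleton_zero.2 ?_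
  set U : Set 𝐀 := {x | x.2 ∈ finInt K} ∩ ⋂ w : InfinitePlace K, {x | ‖x.1 w‖ < 1}
  have hU : IsOpen U := ((isOpen_finInt K).preimage continuous_snd).inter
    (isOpen_iInter_of_finite fun w =>
      isOpen_lt (FA.Ideles.continuous_infComp w).norm continuous_const)
  refine ⟨U, hU, Set.ext fun ⟨x, hx⟩ => ⟨fun hxU => ?_, fun h => ?_⟩⟩
  · obtain ⟨k, rfl⟩ := mem_principalAdeles.1 hx
    obtain ⟨r, rfl⟩ := exists_integer_of_mem hxU.1
    have hr : r = 0 := FA.IdeleClass.eq_zero_of_forall_lt_one fun w => by
      have h1 : ‖algebraMap K w.Completion (r : K)‖ < 1 := Set.mem_iInter.1 hxU.2 w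
      calc w (r : K) = ‖algebraMap K w.Completion (r : K)‖ :=
            (norm_coe w ((WithAbs.equiv w.1).symm (r : K))).symm
        _ < 1 := h1
    subst hr
    exact Set.mem_singleton_iff.2 (Subtype.ext (map_zero 𝐊))
  · rw [Set.mem_singleton_iff.1 h]
    exact ⟨zero_mem (finInt K), Set.mem_iInter.2 fun w => by
      show ‖(0 : w.Completion)‖ < 1
      rw [norm_zero]; exact one_pos⟩

variable (K) in
theorem isClosed_principalAdeles : IsClosed (principalAdeles K : Set 𝐀) :=
  haveI := discreteTopology_principalAdeles K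
  AddSubgroup.isClosed_of_discrete

instance t2Space_adeleClasses : T2Space (𝐀 ⧸ principalAdeles K) :=
  haveI := isClosed_principalAdeles K
  inferInstance

instance t2Space_mulAdeleClasses : T2Space (Multiplicative (𝐀 ⧸ principalAdeles K)) :=
  t2Space_adeleClasses (K := K)

/-- **The quotient is compact.** -/
instance compactSpace_adeleClasses : CompactSpace (𝐀 ⧸ principalAdeles K) := by
  have hcube : IsCompact ((fun p : (Free.ChooseBasisIndex ℤ (𝓞 K) → ℝ) ×
      FiniteAdeleRing (𝓞 K) K => inInf K (fromCoord K p.1) + inFin K p.2) ''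
        ((Set.univ.pi fun _ => Set.Icc (0 : ℝ) 1) ×ˢ (finInt K : Set (FiniteAdeleRing (𝓞 K) K)))) :=
    ((isCompact_univ_pi fun _ => isCompact_Icc).prod (isCompact_finInt K)).image
      ((continuous_inInf.comp (continuous_fromCoord.comp continuous_fst)).add
        (continuous_inFin.comp continuous_snd))
  refine ⟨(hcube.image continuous_quotient_mk').of_isClosed_subset isClosed_univ fun q _ => ?_⟩
  obtain ⟨a, rfl⟩ := QuotientAddGroup.mk_surjective q
  obtain ⟨k, hk⟩ := exists_sub_mem a.2
  set t := coord (a.1 - algebraMap K (InfiniteAdeleRing K) k)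
  set r : 𝓞 K := ∑ i, ⌊t i⌋ • RingOfIntegers.basis K i with hr
  refine ⟨_, ⟨(fun i => t i - ⌊t i⌋, a.2 - algebraMap K _ k - algebraMap K _ (r : K)),
    ⟨fun i _ => ⟨Int.fract_nonneg (t i), (Int.fract_lt_one (t i)).le⟩,
      sub_mem hk (mem_finInt.2 fun v => valued_integer_le_one v r)⟩, rfl⟩,
    (QuotientAddGroup.eq.2 (mem_principalAdeles.2 ⟨k + r, ?_⟩))⟩
  have hfrom : fromCoord K (fun i => t i - ⌊t i⌋) =
      a.1 - algebraMap K (InfiniteAdeleRing K) k - algebraMap K _ (r : K) := by
    rw [← fromCoord_coord (a.1 - algebraMap K (InfiniteAdeleRing K) k), fromCoord, fromCoord, hr,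
      RingOfIntegers.coe_eq_algebraMap, map_sum, map_sum, ← Finset.sum_sub_distrib]
    refine Finset.sum_congr rfl fun i _ => ?_
    rw [zsmul_eq_mul, map_mul, map_intCast, map_mul, map_intCast, ← integralBasis_apply,
      ← sub_mul]
    congr 1
    exact infAdele_ext fun w => by
      show embAt w (realScalar (K := K) (t i - ⌊t i⌋)) =
        embAt w (realScalar (K := K) (t i) - (⌊t i⌋ : InfiniteAdeleRing K))
      rw [map_sub, map_intCast, embAt_realScalar, embAt_realScalar]
      push_cast
      rfl
  show 𝐊 (k + r) = -(inInf K (fromCoord K _) + inFin K _) + a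
  rw [hfrom]
  have e1 : inInf K (algebraMap K _ k) + inFin K (algebraMap K _ k) = 𝐊 k := inInf_add_inFin (𝐊 k)
  have e2 : inInf K (algebraMap K _ (r : K)) + inFin K (algebraMap K _ (r : K)) = 𝐊 (r : K) :=
    inInf_add_inFin (𝐊 (r : K))
  have e3 := inInf_add_inFin a
  rw [map_add, map_sub, map_sub, map_sub, map_sub, ← e1, ← e2]
  conv_rhs => arg 2; rw [← e3]
  abel

/-! ### The dual -/

/-- The character of the quotient given by a field element. -/
def classChar (a : K) : PontryaginDual (Multiplicative (𝐀 ⧸ principalAdeles K)) :=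
  (⟨AddChar.toMonoidHom
      { toFun := QuotientAddGroup.lift (principalAdeles K)
          (AddMonoidHom.mk' (fun x => Additive.ofMul (stdChar K (𝐊 a * x))) fun x y => by
            rw [mul_add, AddChar.map_add_eq_mul, ofMul_mul])
          (fun x hx => by
            obtain ⟨k, rfl⟩ := mem_principalAdeles.1 hx
            show Additive.ofMul (stdChar K (𝐊 a * 𝐊 k)) = 0
            rw [← map_mul, stdChar_algebraMap, ofMul_one])
        map_zero_eq_one' := by rw [map_zero]; rfl
        map_add_eq_mul' := fun p q => by rw [map_add]; rfl },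
    ((QuotientAddGroup.isOpenQuotientMap_mk.continuous_comp_iff).1
      ((continuous_stdChar K).comp (continuous_const.mul continuous_id))).comp continuous_toAdd⟩ :
    Multiplicative (𝐀 ⧸ principalAdeles K) →ₜ* Circle)

theorem classChar_apply (a : K) (x : 𝐀) :
    classChar a (Multiplicative.ofAdd (QuotientAddGroup.mk x)) = stdChar K (𝐊 a * x) := rfl

/-- The pairing as a homomorphism. -/
def classCharHom : Multiplicative K →* PontryaginDual (Multiplicative (𝐀 ⧸ principalAdeles K)) :=
  MonoidHom.mk' (fun a => classChar a.toAdd) fun a b => PontryaginDual.ext fun q => by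
    obtain ⟨x, hx⟩ := QuotientAddGroup.mk_surjective q.toAdd
    rw [CompactAbelian.dual_mul_apply, show q = Multiplicative.ofAdd (QuotientAddGroup.mk x) from
      congrArg Multiplicative.ofAdd hx.symm, classChar_apply, classChar_apply, classChar_apply,
      toAdd_mul, map_add, add_mul, AddChar.map_add_eq_mul]

theorem classCharHom_bijective : Function.Bijective (classCharHom (K := K)) := by
  have key : ∀ φ : PontryaginDual (Multiplicative (𝐀 ⧸ principalAdeles K)),
      ∃! a : K, ∀ x : 𝐀, φ (Multiplicative.ofAdd (QuotientAddGroup.mk x)) =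
        stdChar K (𝐊 a * x) := fun φ =>
    exists_unique_eq_stdChar (χ :=
      { toFun := fun x => φ (Multiplicative.ofAdd (QuotientAddGroup.mk x))
        map_zero_eq_one' := map_one φ
        map_add_eq_mul' := fun x y => (congrArg φ (show Multiplicative.ofAdd
            (QuotientAddGroup.mk (x + y) : 𝐀 ⧸ principalAdeles K) =
              Multiplicative.ofAdd (QuotientAddGroup.mk x) * Multiplicative.ofAdd
                (QuotientAddGroup.mk y) from rfl)).trans (map_mul φ _ _) })
      ((map_continuous φ).comp (continuous_ofAdd.comp continuous_quotient_mk')) fun k => by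
        show φ (Multiplicative.ofAdd (QuotientAddGroup.mk (𝐊 k))) = 1
        rw [(QuotientAddGroup.eq_zero_iff _).2 (mem_principalAdeles.2 ⟨k, rfl⟩), ofAdd_zero, map_one]
  refine ⟨fun a b h => Multiplicative.toAdd.injective ?_, fun φ => ?_⟩
  · obtain ⟨c, -, huniq⟩ := key (classCharHom a)
    rw [huniq a.toAdd fun x => rfl, huniq b.toAdd fun x => by rw [h]; rfl]
  · obtain ⟨a, ha, -⟩ := key φ
    refine ⟨Multiplicative.ofAdd a, PontryaginDual.ext fun q => ?_⟩
    obtain ⟨x, hx⟩ := QuotientAddGroup.mk_surjective q.toAdd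
    rw [show q = Multiplicative.ofAdd (QuotientAddGroup.mk x) from
      congrArg Multiplicative.ofAdd hx.symm]
    exact (ha x).symm

/-- **The quotient is connected.** -/
theorem connectedSpace_adeleClasses :
    ConnectedSpace (Multiplicative (𝐀 ⧸ principalAdeles K)) := by
  refine CompactAbelian.connectedSpace_iff.2 fun φ n hn h => ?_
  obtain ⟨a, rfl⟩ := classCharHom_bijective.2 φ
  have h1 : a ^ n = 1 := classCharHom_bijective.1 (by rw [map_pow, h, map_one])
  have h2 : n • a.toAdd = 0 := by rw [← toAdd_pow, h1, toAdd_one]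
  rw [show a = 1 from Multiplicative.toAdd.injective ((smul_eq_zero.1 h2).resolve_left hn), map_one]

end FA.AdeleDual

end
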