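import Fermat.Agent.IdeleClass.Compact
import Mathlib.NumberTheory.NumberField.AdeleRing

/-!
# The finite adeles modulo the field

Every finite adele is a field element plus an integral one, and integers approximate the integral
adeles modulo any nonzero integer.  The integral adeles are open and compact, and their multiples
form a basis of neighbourhoods of zero.
-/

set_option autoImplicit false
set_option linter.unusedSectionVars false
set_option linter.style.haveILetI false

noncomputable section

open NumberField IsDedekindDomain Filter Topology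
open WithZero
open FA.QuadFormsNF (valued_algebraMap exists_element_near exists_natCast_mem exists_exp_subset)
open scoped Classical

namespace FA.AdeleDual

universe u

variable {K : Type u} [Field K] [NumberField K]

variable (K) in
/-- The integral finite adeles. -/
def finInt : AddSubgroup (FiniteAdeleRing (𝓞 K) K) where
  carrier := {a | ∀ v, a v ∈ v.adicCompletionIntegers K}
  zero_mem' v := zero_mem _
  add_mem' ha hb v := add_mem (ha v) (hb v)
  neg_mem' ha v := neg_mem (ha v)

theorem mem_finInt {a : FiniteAdeleRing (𝓞 K) K} :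
    a ∈ finInt K ↔ ∀ v, Valued.v (a v) ≤ 1 :=
  forall_congr' fun v => HeightOneSpectrum.mem_adicCompletionIntegers (𝓞 K) K v

theorem finite_not_integral (a : FiniteAdeleRing (𝓞 K) K) :
    {v | a v ∉ v.adicCompletionIntegers K}.Finite :=
  Filter.eventually_cofinite.1 a.2

theorem valued_integer_le_one (v : HeightOneSpectrum (𝓞 K)) (r : 𝓞 K) :
    Valued.v (algebraMap K (v.adicCompletion K) (r : K)) ≤ 1 := by
  rw [valued_algebraMap]
  exact v.valuation_le_one r

theorem valued_natCast_le_exp {v : HeightOneSpectrum (𝓞 K)} {N : ℕ} (h : (N : 𝓞 K) ∈ v.asIdeal)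
    {k n : ℕ} (hkn : k ≤ n) :
    Valued.v (algebraMap K (v.adicCompletion K) ((((N : 𝓞 K) ^ n : 𝓞 K)) : K)) ≤
      exp (-(k : ℤ)) := by
  rw [valued_algebraMap]
  refine ((v.valuation_of_algebraMap _).le.trans ((v.intValuation_le_pow_iff_mem _ _).2
    (Ideal.pow_mem_pow h n))).trans ?_
  exact exp_le_exp.2 (by omega)

/-- **An integral adele is congruent to an integer modulo any nonzero integer.** -/
theorem exists_integer_sub {m : 𝓞 K} (hm : m ≠ 0) {u : FiniteAdeleRing (𝓞 K) K}
    (hu : u ∈ finInt K) :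
    ∃ r : 𝓞 K, ∀ v : HeightOneSpectrum (𝓞 K), Valued.v (u v - algebraMap K (v.adicCompletion K) r) ≤
      Valued.v (algebraMap K (v.adicCompletion K) (m : K)) := by
  rw [mem_finInt] at hu
  have hfin : {v : HeightOneSpectrum (𝓞 K) | v.asIdeal ∣ Ideal.span {m}}.Finite :=
    Ideal.finite_factors (by rwa [Ne, Ideal.zero_eq_bot, Ideal.span_singleton_eq_bot])
  have hk : ∀ v : HeightOneSpectrum (𝓞 K), ∃ k : ℕ,
      exp (-((k + 1 : ℕ) : ℤ)) ≤ Valued.v (algebraMap K (v.adicCompletion K) (m : K)) := fun v => by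
    have h0 : Valued.v (algebraMap K (v.adicCompletion K) (m : K)) ≠ 0 := by
      rw [Valuation.ne_zero_iff, map_ne_zero]
      exact_mod_cast hm
    refine ⟨(-log (Valued.v (algebraMap K (v.adicCompletion K) (m : K)))).toNat, ?_⟩
    conv_rhs => rw [← exp_log h0]
    exact exp_le_exp.2 (by omega)
  choose k hk using hk
  have hr : ∀ v : HeightOneSpectrum (𝓞 K), ∃ r : 𝓞 K, ∀ r' : 𝓞 K,
      r' - r ∈ v.asIdeal ^ (k v + 1) →
        Valued.v (u v - algebraMap K (v.adicCompletion K) (r' : K)) ≤
          exp (-((k v + 1 : ℕ) : ℤ)) := fun v => by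
    obtain ⟨b, hb⟩ := exists_element_near v (u v) (k v + 1)
    have hb1 : v.valuation K (b : K) ≤ 1 := by
      rw [← valued_algebraMap v, ← add_sub_cancel (u v) (algebraMap K (v.adicCompletion K) (b : K))]
      refine Valuation.map_add_le _ (hu v) (hb.trans ?_)
      rw [← exp_zero, exp_le_exp]
      omega
    obtain ⟨r, hr⟩ := FA.IdeleClass.exists_integer_near_any v (k v) hb1
    refine ⟨r, fun r' hr' => ?_⟩
    rw [Valuation.map_sub_swap,
      ← sub_add_sub_cancel _ (algebraMap K (v.adicCompletion K) (b : K)) (u v)]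
    refine Valuation.map_add_le _ ?_ hb
    rw [← map_sub, valued_algebraMap]
    exact hr r' hr'
  choose rv hrv using hr
  obtain ⟨r, hr'⟩ := IsDedekindDomain.exists_forall_sub_mem_ideal (s := hfin.toFinset)
    (fun v : HeightOneSpectrum (𝓞 K) => v.asIdeal) (fun v => k v + 1)
    (fun v _ => Ideal.prime_of_isPrime v.ne_bot v.isPrime)
    (fun v _ w _ hvw h => hvw (HeightOneSpectrum.ext h)) fun v => rv v.1
  refine ⟨r, fun v => ?_⟩
  by_cases hv : v.asIdeal ∣ Ideal.span {m}
  · exact (hrv v r (hr' v (hfin.mem_toFinset.2 hv))).trans (hk v)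
  · have h1 : Valued.v (algebraMap K (v.adicCompletion K) (m : K)) = 1 := by
      rw [valued_algebraMap]
      refine (v.valuation_of_algebraMap m).trans
        (le_antisymm (v.intValuation_le_one m) (not_lt.1 fun h => hv ?_))
      exact (v.intValuation_lt_one_iff_dvd m).1 h
    rw [h1]
    exact Valuation.map_sub_le _ (hu v) (valued_integer_le_one v r)

/-- **Every finite adele is a field element plus an integral one.** -/
theorem exists_sub_mem (a : FiniteAdeleRing (𝓞 K) K) :
    ∃ k : K, a - algebraMap K (FiniteAdeleRing (𝓞 K) K) k ∈ finInt K := by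
  set S := (finite_not_integral a).toFinset
  obtain ⟨N, hN, hNS⟩ := exists_natCast_mem S
  have he : ∀ v : HeightOneSpectrum (𝓞 K), ∃ e : ℕ, Valued.v (a v) ≤ exp (e : ℤ) := fun v => by
    by_cases h : Valued.v (a v) = 0
    · exact ⟨0, by rw [h]; exact zero_le⟩
    · refine ⟨(log (Valued.v (a v))).toNat, ?_⟩
      conv_lhs => rw [← exp_log h]
      exact exp_le_exp.2 (Int.self_le_toNat _)
  choose e he using he
  set m : 𝓞 K := (N : 𝓞 K) ^ (S.sup e)
  have hm : m ≠ 0 := pow_ne_zero _ (Nat.cast_ne_zero.2 hN)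
  have hmK : (m : K) ≠ 0 := RingOfIntegers.coe_ne_zero_iff.2 hm
  have hu : algebraMap K (FiniteAdeleRing (𝓞 K) K) (m : K) * a ∈ finInt K := mem_finInt.2 fun v => by
    show Valued.v (algebraMap K (v.adicCompletion K) (m : K) * a v) ≤ 1
    rw [map_mul]
    by_cases hv : v ∈ S
    · refine (mul_le_mul' (valued_natCast_le_exp (hNS v hv) (Finset.le_sup hv)) (he v)).trans ?_
      rw [← exp_add, ← exp_zero, exp_le_exp]
      omega
    · exact mul_le_one' (valued_integer_le_one v m)
        ((HeightOneSpectrum.mem_adicCompletionIntegers (𝓞 K) K v).1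
          (not_not.1 fun h => hv ((finite_not_integral a).mem_toFinset.2 h)))
  obtain ⟨r, hr⟩ := exists_integer_sub hm hu
  refine ⟨(r : K) / m, mem_finInt.2 fun v => ?_⟩
  show Valued.v (a v - algebraMap K (v.adicCompletion K) ((r : K) / m)) ≤ 1
  have h0 : algebraMap K (v.adicCompletion K) (m : K) ≠ 0 := (map_ne_zero _).2 hmK
  rw [show a v - algebraMap K (v.adicCompletion K) ((r : K) / m) =
    (algebraMap K (v.adicCompletion K) (m : K))⁻¹ *
      (algebraMap K (v.adicCompletion K) (m : K) * a v - algebraMap K (v.adicCompletion K) r) by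
      rw [map_div₀]; field_simp, map_mul, map_inv₀]
  exact inv_mul_le_one_of_le₀ (hr v) zero_le

variable (K) in
theorem isOpen_finInt : IsOpen (finInt K : Set (FiniteAdeleRing (𝓞 K) K)) :=
  RestrictedProduct.isOpen_forall_mem fun v => Valued.isOpen_valuationSubring (v.adicCompletion K)

variable (K) in
/-- The map of the product of the local integers. -/
def intMap : ((v : HeightOneSpectrum (𝓞 K)) → v.adicCompletionIntegers K) →
    FiniteAdeleRing (𝓞 K) K :=
  RestrictedProduct.structureMap _ _ Filter.cofinite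

variable (K) in
/-- **The integral adeles are compact.** -/
theorem isCompact_finInt : IsCompact (finInt K : Set (FiniteAdeleRing (𝓞 K) K)) := by
  rw [show (finInt K : Set (FiniteAdeleRing (𝓞 K) K)) = Set.range (intMap K) from
    Set.ext fun a => ⟨fun ha => ⟨fun v => ⟨a v, ha v⟩, FiniteAdeleRing.ext _ fun v => rfl⟩,
      fun ⟨u, hu⟩ v => hu ▸ (u v).2⟩]
  exact isCompact_range RestrictedProduct.isEmbedding_structureMap.continuous

/-- **The multiples of the integral adeles form a basis of neighbourhoods of zero.** -/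
theorem exists_mul_subset {W : Set (FiniteAdeleRing (𝓞 K) K)} (hW : W ∈ 𝓝 0) :
    ∃ m : 𝓞 K, m ≠ 0 ∧ ∀ u ∈ finInt K,
      algebraMap K (FiniteAdeleRing (𝓞 K) K) (m : K) * u ∈ W := by
  have hc : Continuous (intMap K) := RestrictedProduct.isEmbedding_structureMap.continuous
  have h0 : intMap K (fun v => 0) = 0 := FiniteAdeleRing.ext _ fun v => rfl
  have hW' := hc.continuousAt.preimage_mem_nhds (h0 ▸ hW)
  rw [nhds_pi, Filter.mem_pi] at hW'
  obtain ⟨I, hI, t, ht, hsub⟩ := hW'
  have hk : ∀ v : HeightOneSpectrum (𝓞 K), ∃ k : ℕ, ∀ y : v.adicCompletionIntegers K,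
      Valued.v (y : v.adicCompletion K) ≤ exp (-(k : ℤ)) → y ∈ t v := fun v => by
    obtain ⟨s, hs, hst⟩ := (mem_nhds_induced _ _ _).1 (ht v)
    obtain ⟨k, hk⟩ := exists_exp_subset v hs
    exact ⟨k, fun y hy => hst (hk _ (by rwa [ZeroMemClass.coe_zero, sub_zero]))⟩
  choose k hk using hk
  obtain ⟨N, hN, hNS⟩ := exists_natCast_mem hI.toFinset
  refine ⟨(N : 𝓞 K) ^ (hI.toFinset.sup k), pow_ne_zero _ (Nat.cast_ne_zero.2 hN), fun u hu => ?_⟩
  set m : 𝓞 K := (N : 𝓞 K) ^ (hI.toFinset.sup k)
  have hmu : ∀ v, algebraMap K (v.adicCompletion K) (m : K) * u v ∈ v.adicCompletionIntegers K :=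
    fun v => mul_mem ((HeightOneSpectrum.mem_adicCompletionIntegers (𝓞 K) K v).2
      (valued_integer_le_one v m)) (hu v)
  have := hsub (a := fun v => (⟨_, hmu v⟩ : v.adicCompletionIntegers K)) fun v hv => hk v _ (by
    show Valued.v (algebraMap K (v.adicCompletion K) (m : K) * u v) ≤ exp (-(k v : ℤ))
    rw [map_mul]
    refine (mul_le_of_le_one_right' (mem_finInt.1 hu v)).trans ?_
    exact valued_natCast_le_exp (hNS v (hI.mem_toFinset.2 hv))
      (Finset.le_sup (hI.mem_toFinset.2 hv)))
  rwa [Set.mem_preimage, show intMap K (fun v => (⟨_, hmu v⟩ : v.adicCompletionIntegers K)) =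
    algebraMap K (FiniteAdeleRing (𝓞 K) K) (m : K) * u from FiniteAdeleRing.ext _ fun v => rfl]
    at this

end FA.AdeleDual

end
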