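import Fermat.Agent.AdeleDuality.SelfDual
import Mathlib.MeasureTheory.Group.FundamentalDomain
import Mathlib.MeasureTheory.Measure.Haar.Basic

/-!
# A fundamental domain of the field in the adeles

The adeles with integral finite part and coordinates in `[0, 1)` at infinity meet every class
modulo the field once.
-/

set_option autoImplicit false
set_option linter.unusedSectionVars false
set_option linter.style.haveILetI false

noncomputable section

open NumberField IsDedekindDomain MeasureTheory MeasureTheory.Measure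
open Filter Topology Module
open scoped Classical

set_option maxHeartbeats 400000

namespace FA.AdeleDual

universe u

variable {K : Type u} [Field K] [NumberField K]

local notation "𝐀" => AdeleRing (𝓞 K) K
local notation "𝐊" => algebraMap K (AdeleRing (𝓞 K) K)

theorem coord_add (y z : InfiniteAdeleRing K) : coord (y + z) = coord y + coord z := by
  ext i
  simp only [coord, map_add, Finsupp.add_apply, Pi.add_apply]

theorem coord_sub (y z : InfiniteAdeleRing K) : coord (y - z) = coord y - coord z := by
  ext i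
  simp only [coord, map_sub, Finsupp.sub_apply, Pi.sub_apply]

theorem coord_algebraMap (k : K) (i : Free.ChooseBasisIndex ℤ (𝓞 K)) :
    coord (algebraMap K (InfiniteAdeleRing K) k) i = ((integralBasis K).repr k i : ℝ) := by
  rw [coord, ← InfiniteAdeleRing.mixedEmbedding_eq_algebraMap_comp,
    mixedEmbedding.latticeBasis_repr_apply]

theorem coord_integer (r : 𝓞 K) (i : Free.ChooseBasisIndex ℤ (𝓞 K)) :
    coord (algebraMap K (InfiniteAdeleRing K) (r : K)) i =
      (((RingOfIntegers.basis K).repr r i : ℤ) : ℝ) := by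
  rw [coord_algebraMap, RingOfIntegers.coe_eq_algebraMap, integralBasis_repr_apply, eq_intCast,
    Rat.cast_intCast]

theorem continuous_coord : Continuous (coord (K := K)) := by
  have he : Continuous (InfiniteAdeleRing.ringEquiv_mixedSpace K) := by
    show Continuous fun x : InfiniteAdeleRing K => InfiniteAdeleRing.ringEquiv_mixedSpace K x
    simp only [InfiniteAdeleRing.ringEquiv_mixedSpace_apply]
    exact (continuous_pi fun v => (InfinitePlace.Completion.isometry_extensionEmbeddingOfIsReal
      v.2).continuous.comp (continuous_apply v.1)).prodMk (continuous_pi fun v =>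
        (InfinitePlace.Completion.isometry_extensionEmbedding v.1).continuous.comp
          (continuous_apply v.1))
  exact continuous_pi fun i =>
    (LinearMap.continuous_of_finiteDimensional ((mixedEmbedding.latticeBasis K).coord i)).comp he

variable (K) in
theorem countable_field : Countable K :=
  Countable.of_equiv _ (integralBasis K).repr.toEquiv.symm

instance countable_principalAdeles : Countable (principalAdeles K) := by
  haveI := countable_field K
  exact Function.Surjective.countable
    (f := fun k : K => (⟨𝐊 k, mem_principalAdeles.2 ⟨k, rfl⟩⟩ : principalAdeles K))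
    fun ⟨x, hx⟩ => by
      obtain ⟨k, hk⟩ := mem_principalAdeles.1 hx
      exact ⟨k, Subtype.ext hk⟩

variable (K) in
/-- The fundamental domain. -/
def funDom : Set 𝐀 :=
  {x | x.2 ∈ finInt K ∧ ∀ i, coord x.1 i ∈ Set.Ico (0 : ℝ) 1}

/-- **Every adele has exactly one translate in it.** -/
theorem existsUnique_mem_funDom (x : 𝐀) : ∃! g : principalAdeles K, g +ᵥ x ∈ funDom K := by
  obtain ⟨k, hk⟩ := exists_sub_mem x.2
  set t := coord (x.1 - algebraMap K (InfiniteAdeleRing K) k) with ht
  set r : 𝓞 K := ∑ i, ⌊t i⌋ • RingOfIntegers.basis K i with hr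
  have hrep : ∀ i, (RingOfIntegers.basis K).repr r i = ⌊t i⌋ := fun i => by
    rw [hr, Basis.repr_sum_self]
  have hmem : x.2 - algebraMap K (FiniteAdeleRing (𝓞 K) K) k -
      algebraMap K (FiniteAdeleRing (𝓞 K) K) (r : K) ∈ finInt K :=
    sub_mem hk (mem_finInt.2 fun v => valued_integer_le_one v r)
  refine ⟨⟨-𝐊 (k + r), neg_mem (mem_principalAdeles.2 ⟨_, rfl⟩)⟩, ⟨?_, fun i => ?_⟩, ?_⟩
  · show (-𝐊 (k + r) + x).2 ∈ finInt K
    rw [show (-𝐊 (k + r) + x).2 = x.2 - algebraMap K (FiniteAdeleRing (𝓞 K) K) (k + r) from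
      neg_add_eq_sub _ _, map_add, ← sub_sub]
    exact hmem
  · show coord (-𝐊 (k + r) + x).1 i ∈ Set.Ico (0 : ℝ) 1
    rw [show (-𝐊 (k + r) + x).1 = x.1 - algebraMap K (InfiniteAdeleRing K) (k + r) from
      neg_add_eq_sub _ _, map_add, ← sub_sub, coord_sub, ← ht, Pi.sub_apply, coord_integer, hrep]
    exact ⟨Int.fract_nonneg (t i), Int.fract_lt_one (t i)⟩
  · rintro ⟨g, hg⟩ ⟨hg1, hg2⟩
    obtain ⟨c, rfl⟩ := mem_principalAdeles.1 hg
    refine Subtype.ext ?_
    show 𝐊 c = -𝐊 (k + r)
    rw [← map_neg]
    obtain ⟨s, hs⟩ := exists_integer_of_mem (k := c + (k + r)) (by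
      have h1 : (𝐊 c + x).2 ∈ finInt K := hg1
      have h2 := sub_mem h1 hmem
      rwa [show (𝐊 c + x).2 - (x.2 - algebraMap K (FiniteAdeleRing (𝓞 K) K) k -
          algebraMap K (FiniteAdeleRing (𝓞 K) K) (r : K)) =
            algebraMap K (FiniteAdeleRing (𝓞 K) K) (c + (k + r)) by
        rw [show (𝐊 c + x).2 = algebraMap K (FiniteAdeleRing (𝓞 K) K) c + x.2 from rfl, map_add,
          map_add]
        abel] at h2)
    have hs0 : s = 0 := (RingOfIntegers.basis K).repr.injective (Finsupp.ext fun i => by
      rw [map_zero, Finsupp.zero_apply]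
      have h1 : coord (𝐊 c + x).1 i ∈ Set.Ico (0 : ℝ) 1 := hg2 i
      rw [show (𝐊 c + x).1 = algebraMap K (InfiniteAdeleRing K) (c + (k + r)) +
          (x.1 - algebraMap K (InfiniteAdeleRing K) k - algebraMap K (InfiniteAdeleRing K) (r : K))
          by rw [show (𝐊 c + x).1 = algebraMap K (InfiniteAdeleRing K) c + x.1 from rfl, map_add,
            map_add]; abel,
        coord_add, coord_sub, ← ht, Pi.add_apply, Pi.sub_apply, ← hs, coord_integer, coord_integer,
        hrep] at h1
      have h3 : t i - ⌊t i⌋ < 1 := Int.fract_lt_one (t i)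
      have h4 : 0 ≤ t i - ⌊t i⌋ := Int.fract_nonneg (t i)
      have h5 : (-1 : ℝ) < (((RingOfIntegers.basis K).repr s i : ℤ) : ℝ) := by linarith [h1.1]
      have h6 : (((RingOfIntegers.basis K).repr s i : ℤ) : ℝ) < 1 := by linarith [h1.2]
      have h7 : -1 < (RingOfIntegers.basis K).repr s i := by exact_mod_cast h5
      have h8 : (RingOfIntegers.basis K).repr s i < 1 := by exact_mod_cast h6
      omega)
    rw [hs0] at hs
    exact congrArg 𝐊 (eq_neg_of_add_eq_zero_left (hs.symm.trans (by simp)))

variable [MeasurableSpace (AdeleRing (𝓞 K) K)] [BorelSpace (AdeleRing (𝓞 K) K)]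

variable (K) in
theorem measurableSet_funDom : MeasurableSet (funDom K) := by
  have e : funDom K = {x : 𝐀 | x.2 ∈ finInt K} ∩
      ⋂ i, (fun x : 𝐀 => coord x.1 i) ⁻¹' Set.Ico 0 1 := by
    ext x
    simp [funDom]
  rw [e]
  have h1 : IsOpen {x : 𝐀 | x.2 ∈ finInt K} := (isOpen_finInt K).preimage continuous_snd
  have h2 : ∀ i, Continuous fun x : 𝐀 => coord x.1 i := fun i =>
    (continuous_apply i).comp (continuous_coord.comp continuous_fst)
  exact h1.measurableSet.inter
    (MeasurableSet.iInter fun i => measurableSet_Ico.preimage (h2 i).measurable)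

theorem isAddFundamentalDomain_funDom (μ : Measure 𝐀) :
    IsAddFundamentalDomain (principalAdeles K) (funDom K) μ :=
  IsAddFundamentalDomain.mk' (measurableSet_funDom K).nullMeasurableSet existsUnique_mem_funDom

variable (K) in
/-- A compact set containing the fundamental domain. -/
def funBox : Set 𝐀 :=
  (fun p : (Free.ChooseBasisIndex ℤ (𝓞 K) → ℝ) × FiniteAdeleRing (𝓞 K) K =>
    inInf K (fromCoord K p.1) + inFin K p.2) ''
      ((Set.univ.pi fun _ => Set.Icc (0 : ℝ) 1) ×ˢ (finInt K : Set (FiniteAdeleRing (𝓞 K) K)))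

variable (K) in
theorem isCompact_funBox : IsCompact (funBox K) :=
  ((isCompact_univ_pi fun _ => isCompact_Icc).prod (isCompact_finInt K)).image
    ((continuous_inInf.comp (continuous_fromCoord.comp continuous_fst)).add
      (continuous_inFin.comp continuous_snd))

variable (K) in
theorem funDom_subset_funBox : funDom K ⊆ funBox K := fun x hx =>
  ⟨(coord x.1, x.2), ⟨fun i _ => ⟨(hx.2 i).1, (hx.2 i).2.le⟩, hx.1⟩, by
    show inInf K (fromCoord K (coord x.1)) + inFin K x.2 = x
    rw [fromCoord_coord, inInf_add_inFin]⟩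

variable (K) in
/-- **The Haar measure for which the quotient has volume one.** -/
theorem exists_haar_funDom :
    ∃ μ : Measure 𝐀, IsAddHaarMeasure μ ∧ μ (funDom K) = 1 := by
  haveI := locallyCompact_adele K
  set μ₀ := addHaar (G := 𝐀)
  have htop : μ₀ (funDom K) ≠ ⊤ :=
    ((measure_mono (funDom_subset_funBox K)).trans_lt (isCompact_funBox K).measure_lt_top).ne
  have h0 : μ₀ (funDom K) ≠ 0 := fun h => by
    have h1 := (isAddFundamentalDomain_funDom μ₀).measure_zero_of_invariant Set.univ
      (fun g => Set.vadd_set_univ) (by rwa [Set.univ_inter])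
    exact (isOpen_univ.measure_pos μ₀ Set.univ_nonempty).ne' h1
  refine ⟨(μ₀ (funDom K))⁻¹ • μ₀,
    IsAddHaarMeasure.smul μ₀ (ENNReal.inv_ne_zero.2 htop) (ENNReal.inv_ne_top.2 h0), ?_⟩
  rw [Measure.smul_apply, smul_eq_mul, ENNReal.inv_mul_cancel h0 htop]

end FA.AdeleDual

end
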