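import Fermat.Agent.AdeleDuality.Character
import Fermat.Agent.CompactAbelian.Duality
import Mathlib.NumberTheory.NumberField.CanonicalEmbedding.Basic

/-!
# Real coordinates on the infinite adeles

An integral basis of the field is a real basis of the infinite adeles; a character of the reals of
period one is `exp (- 2 π i n t)`, so one of the infinite adeles trivial on the integers is that of
the trace of a multiple by a field element.
-/

set_option autoImplicit false
set_option linter.unusedSectionVars false
set_option linter.style.haveILetI false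

noncomputable section

open NumberField NumberField.InfinitePlace NumberField.InfinitePlace.Completion IsDedekindDomain
open Filter Topology Module
open scoped Classical

namespace FA.AdeleDual

universe u

variable {K : Type u} [Field K] [NumberField K]

/-- The character `exp (2 π i x)` of the circle of period one. -/
def circleGen : PontryaginDual (Multiplicative (AddCircle (1 : ℝ))) :=
  (⟨{ toFun := fun x => AddCircle.toCircle (Multiplicative.toAdd x)
      map_one' := AddCircle.toCircle_zero
      map_mul' := fun x y => AddCircle.toCircle_add _ _ },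
    AddCircle.continuous_toCircle.comp continuous_toAdd⟩ :
    Multiplicative (AddCircle (1 : ℝ)) →ₜ* Circle)

theorem dual_zpow_apply {G : Type*} [TopologicalSpace G] [CommGroup G] (χ : PontryaginDual G)
    (n : ℤ) (x : G) : (χ ^ n) x = χ x ^ n :=
  map_zpow
    ({ toFun := fun φ => φ x, map_one' := rfl, map_mul' := fun _ _ => rfl } :
      PontryaginDual G →* Circle) χ n

/-- **A character of the reals of period one is `exp (- 2 π i n t)`.** -/
theorem exists_int_of_periodic {f : AddChar ℝ Circle} (hc : Continuous f) (h1 : f 1 = 1) :
    ∃ n : ℤ, ∀ t : ℝ, f t = expNeg (n * t) := by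
  have hp : Function.Periodic f 1 := fun t => by rw [AddChar.map_add_eq_mul, h1, mul_one]
  have hl : Continuous hp.lift := continuous_coinduced_dom.2 hc
  have hcont : Continuous (fun x : Multiplicative (AddCircle (1 : ℝ)) => hp.lift x.toAdd) :=
    hl.comp continuous_toAdd
  let χ : PontryaginDual (Multiplicative (AddCircle (1 : ℝ))) :=
    (⟨{ toFun := fun x => hp.lift x.toAdd
        map_one' := f.map_zero_eq_one
        map_mul' := fun x y => by
          obtain ⟨s, hs⟩ := QuotientAddGroup.mk_surjective x.toAdd
          obtain ⟨t, ht⟩ := QuotientAddGroup.mk_surjective y.toAdd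
          rw [toAdd_mul, ← hs, ← ht]
          exact f.map_add_eq_mul s t },
      hcont⟩ : Multiplicative (AddCircle (1 : ℝ)) →ₜ* Circle)
  have htop := CompactAbelian.eq_top_of_separates (Subgroup.zpowers circleGen) fun a ha =>
    ⟨circleGen, Subgroup.mem_zpowers _, fun e => ha (Multiplicative.toAdd.injective
      (AddCircle.injective_toCircle one_ne_zero (e.trans AddCircle.toCircle_zero.symm)))⟩
  obtain ⟨n, hn⟩ := Subgroup.mem_zpowers_iff.1 (htop.ge (Subgroup.mem_top χ))
  refine ⟨-n, fun t => ?_⟩
  have h2 := DFunLike.congr_fun hn (Multiplicative.ofAdd (t : AddCircle (1 : ℝ)))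
  rw [dual_zpow_apply] at h2
  change AddCircle.toCircle (t : AddCircle (1 : ℝ)) ^ n = f t at h2
  rw [← h2, expNeg_apply, ← AddCircle.toCircle_zsmul, ← AddCircle.coe_zsmul]
  congr 2
  push_cast
  rw [zsmul_eq_mul]
  ring

/-- A real number as an infinite adele. -/
def realScalar (t : ℝ) : InfiniteAdeleRing K := fun w =>
  if h : IsReal w then (ringEquivRealOfIsReal h).symm t
  else (ringEquivComplexOfIsComplex (not_isReal_iff_isComplex.1 h)).symm t

theorem extensionEmbedding_realScalar (t : ℝ) (w : InfinitePlace K) :
    extensionEmbedding w (realScalar (K := K) t w) = t := by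
  rw [realScalar]
  split_ifs with h
  · rw [← extensionEmbeddingOfIsReal_apply h, ← ringEquivRealOfIsReal_apply,
      RingEquiv.apply_symm_apply]
  · rw [← ringEquivComplexOfIsComplex_apply (not_isReal_iff_isComplex.1 h),
      RingEquiv.apply_symm_apply]

/-- The embedding at an infinite place. -/
def embAt (w : InfinitePlace K) : InfiniteAdeleRing K →+* ℂ where
  toFun y := extensionEmbedding w (y w)
  map_one' := map_one _
  map_mul' _ _ := map_mul (extensionEmbedding w) _ _
  map_zero' := map_zero _
  map_add' _ _ := map_add (extensionEmbedding w) _ _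

theorem embAt_realScalar (t : ℝ) (w : InfinitePlace K) : embAt w (realScalar (K := K) t) = t :=
  extensionEmbedding_realScalar t w

theorem infAdele_ext {y z : InfiniteAdeleRing K}
    (h : ∀ w, extensionEmbedding w (y w) = extensionEmbedding w (z w)) : y = z :=
  funext fun w => (extensionEmbedding w).injective (h w)

theorem realScalar_add (s t : ℝ) :
    realScalar (K := K) (s + t) = realScalar s + realScalar t :=
  infAdele_ext fun w => by
    show embAt w (realScalar (K := K) (s + t)) = embAt w (realScalar (K := K) s + realScalar t)
    rw [map_add, embAt_realScalar, embAt_realScalar, embAt_realScalar, Complex.ofReal_add]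

theorem realScalar_one : realScalar (K := K) 1 = 1 :=
  infAdele_ext fun w => by
    show embAt w (realScalar (K := K) 1) = embAt w 1
    rw [map_one, embAt_realScalar, Complex.ofReal_one]

theorem continuous_realScalar : Continuous (realScalar (K := K)) :=
  continuous_pi fun w => (isometry_extensionEmbedding w).isEmbedding.isInducing.continuous_iff.2
    (Complex.continuous_ofReal.congr fun t => (extensionEmbedding_realScalar t w).symm)

theorem traceInf_realScalar_mul (t : ℝ) (y : InfiniteAdeleRing K) :
    traceInf K (realScalar t * y) = t * traceInf K y := by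
  rw [traceInf_apply, traceInf_apply, Finset.mul_sum]
  refine Finset.sum_congr rfl fun w _ => ?_
  show (w.mult : ℝ) * (embAt w (realScalar t * y)).re = t * ((w.mult : ℝ) * (embAt w y).re)
  rw [map_mul, embAt_realScalar, Complex.re_ofReal_mul]
  ring

/-- The coordinates in the integral basis. -/
def coord (y : InfiniteAdeleRing K) (i : Free.ChooseBasisIndex ℤ (𝓞 K)) : ℝ :=
  (mixedEmbedding.latticeBasis K).repr (InfiniteAdeleRing.ringEquiv_mixedSpace K y) i

variable (K) in
/-- The point with given coordinates. -/
def fromCoord (t : Free.ChooseBasisIndex ℤ (𝓞 K) → ℝ) : InfiniteAdeleRing K :=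
  ∑ i, realScalar (t i) * algebraMap K (InfiniteAdeleRing K) (integralBasis K i)

theorem fromCoord_coord (y : InfiniteAdeleRing K) : fromCoord K (coord y) = y := by
  refine (InfiniteAdeleRing.ringEquiv_mixedSpace K).injective ?_
  conv_rhs => rw [← (mixedEmbedding.latticeBasis K).sum_repr
    (InfiniteAdeleRing.ringEquiv_mixedSpace K y)]
  rw [fromCoord, map_sum]
  refine Finset.sum_congr rfl fun i _ => ?_
  rw [map_mul, ← InfiniteAdeleRing.mixedEmbedding_eq_algebraMap_comp,
    mixedEmbedding.latticeBasis_apply, coord]
  refine Prod.ext (funext fun w => ?_) (funext fun w => ?_)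
  · show extensionEmbeddingOfIsReal w.2 (realScalar _ w.1) * _ = _ * _
    rw [Complex.ofReal_injective ((extensionEmbeddingOfIsReal_apply w.2 _).trans
      (extensionEmbedding_realScalar _ w.1))]
  · show extensionEmbedding w.1 (realScalar _ w.1) * _ = (_ : ℝ) • (_ : ℂ)
    rw [extensionEmbedding_realScalar, Complex.real_smul]
    simp

theorem continuous_fromCoord : Continuous (fromCoord K) :=
  continuous_finsetSum _ fun i _ =>
    (continuous_realScalar.comp (continuous_apply i)).mul continuous_const

variable (K) in
/-- The trace-dual of the integral basis. -/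
def traceDual : Basis (Free.ChooseBasisIndex ℤ (𝓞 K)) ℚ K :=
  (Algebra.traceForm ℚ K).dualBasis (traceForm_nondegenerate ℚ K) (integralBasis K)

theorem trace_sum_traceDual_mul (m : Free.ChooseBasisIndex ℤ (𝓞 K) → ℚ)
    (j : Free.ChooseBasisIndex ℤ (𝓞 K)) :
    Algebra.trace ℚ K ((∑ i, m i • traceDual K i) * integralBasis K j) = m j := by
  rw [← Algebra.traceForm_apply, map_sum, LinearMap.sum_apply]
  simp only [map_smul, LinearMap.smul_apply, traceDual,
    LinearMap.BilinForm.apply_dualBasis_left, smul_eq_mul, mul_ite, mul_one, mul_zero]
  rw [Finset.sum_ite_eq, if_pos (Finset.mem_univ j)]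

theorem addChar_sum {A M ι : Type*} [AddCommMonoid A] [CommMonoid M] (f : AddChar A M) (s : Finset ι)
    (g : ι → A) : f (∑ i ∈ s, g i) = ∏ i ∈ s, f (g i) := by
  induction s using Finset.induction_on with
  | empty => simp
  | insert a s ha ih => rw [Finset.sum_insert ha, Finset.prod_insert ha, AddChar.map_add_eq_mul, ih]

/-- **A character of the infinite adeles trivial on the integers.** -/
theorem exists_eq_expNeg_traceInf {f : AddChar (InfiniteAdeleRing K) Circle} (hc : Continuous f)
    (h1 : ∀ r : 𝓞 K, f (algebraMap K (InfiniteAdeleRing K) (r : K)) = 1) :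
    ∃ α : K, ∀ y, f y = expNeg (traceInf K (algebraMap K (InfiniteAdeleRing K) α * y)) := by
  have hg : ∀ i, ∃ n : ℤ, ∀ t : ℝ,
      f (realScalar t * algebraMap K (InfiniteAdeleRing K) (integralBasis K i)) =
        expNeg (n * t) := fun i => by
    let g : AddChar ℝ Circle :=
      { toFun := fun t => f (realScalar t * algebraMap K (InfiniteAdeleRing K) (integralBasis K i))
        map_zero_eq_one' := by
          rw [show realScalar (K := K) 0 = 0 from infAdele_ext fun w => by
            show embAt w (realScalar (K := K) 0) = embAt w 0
            rw [map_zero, embAt_realScalar, Complex.ofReal_zero], zero_mul, AddChar.map_zero_eq_one]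
        map_add_eq_mul' := fun s t => by rw [realScalar_add, add_mul, AddChar.map_add_eq_mul] }
    refine exists_int_of_periodic (f := g)
      (hc.comp (continuous_realScalar.mul continuous_const)) ?_
    show f (realScalar 1 * _) = 1
    rw [realScalar_one, one_mul, integralBasis_apply]
    exact h1 _
  choose n hn using hg
  refine ⟨∑ i, (n i : ℚ) • traceDual K i, fun y => ?_⟩
  conv_lhs => rw [← fromCoord_coord y]
  conv_rhs => rw [← fromCoord_coord y]
  rw [fromCoord, Finset.mul_sum, map_sum (traceInf K), addChar_sum, addChar_sum]
  refine Finset.prod_congr rfl fun i _ => ?_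
  rw [hn, mul_left_comm, traceInf_realScalar_mul, ← map_mul, traceInf_algebraMap,
    trace_sum_traceDual_mul, Rat.cast_intCast, mul_comm]

end FA.AdeleDual

end
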