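import Fermat.Agent.AdeleDuality.SchwartzBruhat
import Mathlib.NumberTheory.NumberField.CanonicalEmbedding.Basic
import Mathlib.RingTheory.Ideal.Norm.AbsNorm

/-!
# Products of Schwartz functions and locally constant functions

A locally constant function of compact support on the finite adeles is a combination of the
indicators of cosets of a multiple of the integral adeles, so its product with a Schwartz function
at infinity is a Schwartz-Bruhat function.
-/

set_option autoImplicit false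
set_option linter.unusedSectionVars false
set_option linter.style.haveILetI false

noncomputable section

open NumberField IsDedekindDomain MeasureTheory MeasureTheory.Measure
open Filter Topology Module
open scoped Classical SchwartzMap

set_option maxHeartbeats 400000

namespace FA.AdeleDual

universe u

variable {K : Type u} [Field K] [NumberField K]

local notation "𝐀" => AdeleRing (𝓞 K) K
local notation "𝐊" => algebraMap K (AdeleRing (𝓞 K) K)
local notation "𝐅" => algebraMap K (FiniteAdeleRing (𝓞 K) K)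

variable (K) in
/-- The subgroup `N Ô`. -/
def natMulInt (N : ℕ) : AddSubgroup (FiniteAdeleRing (𝓞 K) K) :=
  (finInt K).comap (AddMonoidHom.mulLeft (algebraMap K (FiniteAdeleRing (𝓞 K) K) (N : K)⁻¹))

theorem mem_natMulInt {N : ℕ} {u : FiniteAdeleRing (𝓞 K) K} :
    u ∈ natMulInt K N ↔ 𝐅 (N : K)⁻¹ * u ∈ finInt K := Iff.rfl

theorem natMulInt_le_of_dvd {n N : ℕ} (hd : n ∣ N) (hN : N ≠ 0) :
    natMulInt K N ≤ natMulInt K n := fun u hu => by
  obtain ⟨q, rfl⟩ := hd
  obtain ⟨hn, hq⟩ := mul_ne_zero_iff.1 hN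
  rw [mem_natMulInt] at hu ⊢
  have e : (n : K)⁻¹ = ((q : 𝓞 K) : K) * ((n * q : ℕ) : K)⁻¹ := by
    have hn' : (n : K) ≠ 0 := Nat.cast_ne_zero.2 hn
    have hq' : (q : K) ≠ 0 := Nat.cast_ne_zero.2 hq
    rw [show ((q : 𝓞 K) : K) = (q : K) by simp, Nat.cast_mul]
    field_simp
  rw [e, map_mul, mul_assoc]
  refine mem_finInt.2 fun v => ?_
  show Valued.v (algebraMap K (v.adicCompletion K) ((q : 𝓞 K) : K) * _) ≤ 1
  rw [map_mul]
  exact mul_le_one' (valued_integer_le_one v _) (mem_finInt.1 hu v)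

theorem isOpen_natMulInt (N : ℕ) (c : FiniteAdeleRing (𝓞 K) K) :
    IsOpen {y | y - c ∈ natMulInt K N} := by
  have h : Continuous fun y : FiniteAdeleRing (𝓞 K) K => 𝐅 (N : K)⁻¹ * (y - c) :=
    continuous_const.mul (continuous_id.sub continuous_const)
  exact (isOpen_finInt K).preimage h

/-- **The natural multiples of the integral adeles form a basis of neighbourhoods of zero.** -/
theorem exists_nat_mul_subset {W : Set (FiniteAdeleRing (𝓞 K) K)} (hW : W ∈ 𝓝 0) :
    ∃ N : ℕ, N ≠ 0 ∧ ∀ u ∈ natMulInt K N, u ∈ W := by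
  obtain ⟨m, hm, hmW⟩ := exists_mul_subset hW
  obtain ⟨q, hq⟩ := Ideal.mem_span_singleton.1 (Ideal.absNorm_mem (Ideal.span {m}))
  generalize hNdef : Ideal.absNorm (Ideal.span {m}) = N at hq
  have hN : N ≠ 0 := fun e => hm (by simpa [← hNdef] using e)
  refine ⟨N, hN, fun u hu => ?_⟩
  rw [mem_natMulInt] at hu
  have hNK : (N : K) ≠ 0 := Nat.cast_ne_zero.2 hN
  have e : u = 𝐅 (m : K) * (𝐅 (q : K) * (𝐅 (N : K)⁻¹ * u)) := by
    have e0 : (m : K) * (q : K) * (N : K)⁻¹ = 1 := by
      rw [show (m : K) * (q : K) = ((m * q : 𝓞 K) : K) from (map_mul _ _ _).symm, ← hq,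
        show ((N : 𝓞 K) : K) = (N : K) by simp]
      exact mul_inv_cancel₀ hNK
    rw [← mul_assoc, ← map_mul, ← mul_assoc, ← map_mul, e0, map_one, one_mul]
  rw [e]
  refine hmW _ (mem_finInt.2 fun v => ?_)
  show Valued.v (algebraMap K (v.adicCompletion K) (q : K) * _) ≤ 1
  rw [map_mul]
  exact mul_le_one' (valued_integer_le_one v q) (mem_finInt.1 hu v)

/-- **A locally constant function of compact support is a combination of coset indicators.** -/
theorem exists_nat_decomp {φ : FiniteAdeleRing (𝓞 K) K → ℂ} (hlc : IsLocallyConstant φ)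
    (hcs : HasCompactSupport φ) :
    ∃ N : ℕ, N ≠ 0 ∧ ∃ S : Finset (FiniteAdeleRing (𝓞 K) K), ∀ y, φ y =
      ∑ c ∈ S, if y - c ∈ natMulInt K N then φ c else 0 := by
  have hW : ∀ x, ∃ n : ℕ, n ≠ 0 ∧ ∀ u ∈ natMulInt K n, φ (x + u) = φ x := fun x =>
    exists_nat_mul_subset ((continuous_const_add x).continuousAt.preimage_mem_nhds
      (((hlc.isOpen_fiber (φ x))).mem_nhds (show φ (x + 0) = φ x by rw [add_zero])))
  choose n hn0 hn using hW
  obtain ⟨t, ht⟩ := hcs.elim_finite_subcover _ (fun x => isOpen_natMulInt (n x) x)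
    (fun x _ => Set.mem_iUnion.2 ⟨x, by
      show x - x ∈ natMulInt K (n x)
      rw [sub_self]; exact zero_mem _⟩)
  obtain ⟨N, hN, hle⟩ : ∃ N : ℕ, N ≠ 0 ∧ ∀ x ∈ t, natMulInt K N ≤ natMulInt K (n x) :=
    have h : ∏ x ∈ t, n x ≠ 0 := Finset.prod_ne_zero_iff.2 fun x _ => hn0 x
    ⟨_, h, fun x hx => natMulInt_le_of_dvd (Finset.dvd_prod_of_mem n hx) h⟩
  have h1 : ∀ y u, u ∈ natMulInt K N → y ∈ tsupport φ → φ (y + u) = φ y := fun y u hu hy => by
    obtain ⟨x, hx, hyx⟩ := Set.mem_iUnion₂.1 (ht hy)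
    have h2 := hn x _ (add_mem hyx (hle x hx hu))
    have h3 := hn x _ hyx
    rw [← add_assoc, add_sub_cancel] at h2
    rw [add_sub_cancel] at h3
    rw [h2, h3]
  have hinv : ∀ y u, u ∈ natMulInt K N → φ (y + u) = φ y := fun y u hu => by
    by_cases hy : y ∈ tsupport φ
    · exact h1 y u hu hy
    by_cases hyu : y + u ∈ tsupport φ
    · have := h1 _ (-u) (neg_mem hu) hyu
      rwa [add_neg_cancel_right, eq_comm] at this
    rw [image_eq_zero_of_notMem_tsupport hy, image_eq_zero_of_notMem_tsupport hyu]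
  obtain ⟨s, hs⟩ := hcs.elim_finite_subcover _ (fun x => isOpen_natMulInt N x)
    (fun x _ => Set.mem_iUnion.2 ⟨x, by
      show x - x ∈ natMulInt K N
      rw [sub_self]; exact zero_mem _⟩)
  refine ⟨N, hN, (s.image (QuotientAddGroup.mk (s := natMulInt K N))).image Quotient.out,
    fun y => ?_⟩
  rw [Finset.sum_image fun a _ b _ h => Quotient.out_inj.1 h]
  have hiff : ∀ q : FiniteAdeleRing (𝓞 K) K ⧸ natMulInt K N,
      y - Quotient.out q ∈ natMulInt K N ↔ QuotientAddGroup.mk y = q := fun q => by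
    conv_rhs => rw [← QuotientAddGroup.out_eq' q]
    exact QuotientAddGroup.eq_iff_sub_mem.symm
  have hout : φ (Quotient.out (QuotientAddGroup.mk y : FiniteAdeleRing (𝓞 K) K ⧸ natMulInt K N)) =
      φ y := by
    rw [← hinv y _ (QuotientAddGroup.eq_iff_sub_mem.1 (QuotientAddGroup.out_eq' _)),
      add_sub_cancel]
  simp only [hiff, Finset.sum_ite_eq, hout]
  split_ifs with h
  · rfl
  · refine image_eq_zero_of_notMem_tsupport fun hy => h ?_
    obtain ⟨x, hx, hyx⟩ := Set.mem_iUnion₂.1 (hs hy)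
    exact Finset.mem_image.2 ⟨x, hx, (QuotientAddGroup.eq_iff_sub_mem.2 hyx).symm⟩

/-- The linear coordinates on the mixed space. -/
def mixedCoord : CoordSpace K ≃L[ℝ] mixedEmbedding.mixedSpace K :=
  (EuclideanSpace.equiv (Free.ChooseBasisIndex ℤ (𝓞 K)) ℝ).trans
    (mixedEmbedding.latticeBasis K).equivFun.symm.toContinuousLinearEquiv

theorem mixedCoord_coordE (y : InfiniteAdeleRing K) :
    mixedCoord (coordE K y) = InfiniteAdeleRing.ringEquiv_mixedSpace K y := by
  show (mixedEmbedding.latticeBasis K).equivFun.symm (coord y) = _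
  rw [Basis.equivFun_symm_apply]
  exact (mixedEmbedding.latticeBasis K).sum_repr _

/-- **A product of a Schwartz function and a locally constant function of compact support.** -/
theorem mem_schwartzBruhat_coord (g : 𝓢(CoordSpace K, ℂ))
    {φ : FiniteAdeleRing (𝓞 K) K → ℂ} (hlc : IsLocallyConstant φ) (hcs : HasCompactSupport φ) :
    (fun x : AdeleRing (𝓞 K) K => g (coordE K x.1) * φ x.2) ∈ schwartzBruhat K := by
  obtain ⟨N, hN, S, hS⟩ := exists_nat_decomp hlc hcs
  rw [show (fun x : 𝐀 => g (coordE K x.1) * φ x.2) = ∑ c ∈ S, φ c • pureSB g c N from funext fun x => by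
    rw [hS x.2, Finset.mul_sum, Finset.sum_apply]
    refine Finset.sum_congr rfl fun c _ => ?_
    rw [Pi.smul_apply, smul_eq_mul, pureSB]
    by_cases hx : x ∈ finCoset c N
    · rw [Set.indicator_of_mem hx, if_pos (show x.2 - c ∈ natMulInt K N from hx), mul_comm]
    · rw [Set.indicator_of_notMem hx, if_neg (show x.2 - c ∉ natMulInt K N from hx), mul_zero,
        mul_zero]]
  exact Submodule.sum_mem _ fun c _ =>
    Submodule.smul_mem _ _ (Submodule.subset_span ⟨g, c, N, hN, rfl⟩)

/-- The same, with the Schwartz function on the mixed space. -/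
theorem mem_schwartzBruhat (h : 𝓢(mixedEmbedding.mixedSpace K, ℂ))
    {φ : FiniteAdeleRing (𝓞 K) K → ℂ} (hlc : IsLocallyConstant φ) (hcs : HasCompactSupport φ) :
    (fun x : AdeleRing (𝓞 K) K => h (InfiniteAdeleRing.ringEquiv_mixedSpace K x.1) * φ x.2) ∈
      schwartzBruhat K := by
  simp only [← mixedCoord_coordE]
  exact mem_schwartzBruhat_coord (SchwartzMap.compCLMOfContinuousLinearEquiv ℂ mixedCoord h) hlc hcs

end FA.AdeleDual

end
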