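import Fermat.Agent.AdeleDuality.Duality
import Fermat.Agent.AdeleDuality.Pairing

/-!
# The local characters and the duality of the completions

At a prime the standard character is trivial on the integers and, outside finitely many primes, on
no larger ball; by compactness every character of the completion is a multiple of it.
-/

set_option autoImplicit false
set_option linter.unusedSectionVars false
set_option linter.style.haveILetI false

noncomputable section

open NumberField NumberField.InfinitePlace NumberField.InfinitePlace.Completion IsDedekindDomain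
open Filter Topology Module
open WithZero
open FA.ArtinRec (unif ord valuation_eq_exp ord_unif)
open FA.QuadFormsNF (valued_algebraMap exists_exp_subset)
open scoped Classical Real

set_option maxHeartbeats 400000

namespace FA.AdeleDual

universe u

variable {K : Type u} [Field K] [NumberField K]

/-- An element of a completion as a finite adele. -/
def singleFin (v : HeightOneSpectrum (𝓞 K)) : v.adicCompletion K →+ FiniteAdeleRing (𝓞 K) K :=
  AddMonoidHom.mk' (fun z =>
      RestrictedProduct.single (fun u : HeightOneSpectrum (𝓞 K) => u.adicCompletionIntegers K) v z)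
    fun z z' => RestrictedProduct.single_add _ v z z'

theorem singleFin_self (v : HeightOneSpectrum (𝓞 K)) (z : v.adicCompletion K) :
    singleFin v z v = z :=
  RestrictedProduct.single_eq_same _ v z

theorem singleFin_of_ne {v u : HeightOneSpectrum (𝓞 K)} (h : u ≠ v) (z : v.adicCompletion K) :
    singleFin v z u = 0 :=
  RestrictedProduct.single_eq_of_ne _ z h

theorem singleFin_mem {v : HeightOneSpectrum (𝓞 K)} {z : v.adicCompletion K}
    (hz : Valued.v z ≤ 1) : singleFin v z ∈ finInt K := mem_finInt.2 fun u => by
  by_cases h : u = v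
  · subst h
    rwa [singleFin_self]
  · rw [singleFin_of_ne h, map_zero]
    exact zero_le

theorem continuous_singleFin (v : HeightOneSpectrum (𝓞 K)) : Continuous (singleFin v) := by
  refine continuous_of_continuousAt_zero (singleFin v) ?_
  rw [ContinuousAt, map_zero]
  intro W hW
  obtain ⟨m, hm, hmW⟩ := exists_mul_subset hW
  have hmv : algebraMap K (v.adicCompletion K) (m : K) ≠ 0 :=
    (map_ne_zero _).2 (RingOfIntegers.coe_ne_zero_iff.2 hm)
  have hU : IsOpen ((fun z : v.adicCompletion K =>
      (algebraMap K (v.adicCompletion K) (m : K))⁻¹ * z) ⁻¹'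
        (v.adicCompletionIntegers K : Set (v.adicCompletion K))) :=
    (Valued.isOpen_valuationSubring (v.adicCompletion K)).preimage
      (continuous_const.mul continuous_id)
  refine Filter.mem_map.2 (Filter.mem_of_superset (hU.mem_nhds ?_) fun z hz => ?_)
  · show _ * (0 : v.adicCompletion K) ∈ v.adicCompletionIntegers K
    rw [mul_zero]
    exact zero_mem _
  · have h := hmW _ (singleFin_mem ((HeightOneSpectrum.mem_adicCompletionIntegers (𝓞 K) K v).1 hz))
    show singleFin v z ∈ W
    convert h using 1
    refine FiniteAdeleRing.ext _ fun u => ?_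
    show singleFin v z u = algebraMap K (u.adicCompletion K) (m : K) * singleFin v _ u
    by_cases hu : u = v
    · subst hu
      rw [singleFin_self, singleFin_self, mul_inv_cancel_left₀ hmv]
    · rw [singleFin_of_ne hu, singleFin_of_ne hu, mul_zero]

/-- **The standard character of a completion at a prime.** -/
def finChar (v : HeightOneSpectrum (𝓞 K)) : AddChar (v.adicCompletion K) Circle :=
  (stdChar K).compAddMonoidHom ((inFin K).comp (singleFin v))

theorem finChar_apply (v : HeightOneSpectrum (𝓞 K)) (z : v.adicCompletion K) :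
    finChar v z = stdChar K (inFin K (singleFin v z)) := rfl

theorem continuous_finChar (v : HeightOneSpectrum (𝓞 K)) : Continuous (finChar v) :=
  (continuous_stdChar K).comp (continuous_inFin.comp (continuous_singleFin v))

theorem finChar_of_le {v : HeightOneSpectrum (𝓞 K)} {z : v.adicCompletion K}
    (hz : Valued.v z ≤ 1) : finChar v z = 1 := by
  rw [finChar_apply, stdChar_of_mem (a := inFin K (singleFin v z)) (singleFin_mem hz),
    show (inFin K (singleFin v z)).1 = 0 from rfl, map_zero, AddChar.map_zero_eq_one]

/-! ### The bound -/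

/-- An element with integral traces is a combination of the dual basis. -/
theorem exists_coeff {k : K}
    (h : ∀ r : 𝓞 K, ∃ n : ℤ, ((Algebra.trace ℚ K (k * r) : ℚ) : ℝ) = n) :
    ∃ c : Free.ChooseBasisIndex ℤ (𝓞 K) → ℤ, k = ∑ i, (c i : K) * traceDual K i := by
  choose c hc using fun i => h (RingOfIntegers.basis K i)
  refine ⟨c, ?_⟩
  conv_lhs => rw [← (traceDual K).sum_repr k]
  refine Finset.sum_congr rfl fun i _ => ?_
  rw [Algebra.smul_def, traceDual, LinearMap.BilinForm.dualBasis_repr_apply,
    Algebra.traceForm_apply, integralBasis_apply,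
    show Algebra.trace ℚ K (k * algebraMap (𝓞 K) K (RingOfIntegers.basis K i)) = (c i : ℚ) by
      exact_mod_cast hc i, map_intCast]

/-- A ball killed by the standard character is bounded by the dual basis. -/
theorem exists_bound {v : HeightOneSpectrum (𝓞 K)} {n : ℤ} (hn : 1 ≤ n)
    (h : ∀ z : v.adicCompletion K, Valued.v z ≤ exp n → finChar v z = 1) :
    ∃ i, exp n ≤ v.valuation K (traceDual K i) := by
  have hz0 : Valued.v (algebraMap K (v.adicCompletion K) ((unif v : K) ^ (-n))) = exp n := by
    rw [valued_algebraMap, map_zpow₀, valuation_eq_exp, ord_unif, ← exp_zsmul]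
    simp
  obtain ⟨k, hk⟩ := exists_sub_mem
    (singleFin v (algebraMap K (v.adicCompletion K) ((unif v : K) ^ (-n))))
  set z0 := algebraMap K (v.adicCompletion K) ((unif v : K) ^ (-n)) with hz0'
  have hk' := mem_finInt.1 hk
  have hkv : v.valuation K k = exp n := by
    rw [← valued_algebraMap v]
    have h1 : Valued.v (z0 - algebraMap K (v.adicCompletion K) k) < Valued.v z0 := by
      refine lt_of_le_of_lt ?_ (show (1 : WithZero (Multiplicative ℤ)) < Valued.v z0 by
        rw [hz0, ← exp_zero, exp_lt_exp]; omega)
      have h2 := hk' v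
      rwa [show (singleFin v z0 - algebraMap K (FiniteAdeleRing (𝓞 K) K) k) v =
        singleFin v z0 v - algebraMap K (v.adicCompletion K) k from rfl, singleFin_self] at h2
    rw [← hz0, ← Valuation.map_sub_eq_of_lt_left _ h1, sub_sub_cancel]
  have hint : ∀ r : 𝓞 K, ∃ m : ℤ, ((Algebra.trace ℚ K (k * r) : ℚ) : ℝ) = m := fun r => by
    have hzr : Valued.v (z0 * algebraMap K (v.adicCompletion K) (r : K)) ≤ exp n := by
      rw [map_mul, hz0]
      exact mul_le_of_le_one_right' (valued_integer_le_one v r)
    have h1 := h _ hzr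
    rw [finChar_apply, stdChar_eq (k := k * r) (mem_finInt.2 fun u => ?_)] at h1
    · rw [show (inFin K (singleFin v (z0 * algebraMap K (v.adicCompletion K) (r : K)))).1 = 0
        from rfl, map_zero, zero_sub, traceInf_algebraMap] at h1
      obtain ⟨m, hm⟩ := expNeg_eq_one_iff.1 h1
      exact ⟨-m, by rw [Int.cast_neg, hm, neg_neg]⟩
    · show Valued.v (singleFin v (z0 * algebraMap K (v.adicCompletion K) (r : K)) u -
        algebraMap K (u.adicCompletion K) (k * r)) ≤ 1
      rw [show singleFin v (z0 * algebraMap K (v.adicCompletion K) (r : K)) u =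
        singleFin v z0 u * algebraMap K (u.adicCompletion K) (r : K) by
        by_cases hu : u = v
        · subst hu
          rw [singleFin_self, singleFin_self]
        · rw [singleFin_of_ne hu, singleFin_of_ne hu, zero_mul], map_mul, ← sub_mul, map_mul]
      exact mul_le_one' (hk' u) (valued_integer_le_one u r)
  obtain ⟨c, hc⟩ := exists_coeff hint
  by_contra hall
  push Not at hall
  have hlt : v.valuation K (∑ i, (c i : K) * traceDual K i) < exp n :=
    Valuation.map_sum_lt _ exp_ne_zero fun i _ => by
      rw [map_mul]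
      refine lt_of_le_of_lt (mul_le_of_le_one_left' ?_) (hall i)
      rw [← map_intCast (algebraMap (𝓞 K) K)]
      exact v.valuation_le_one (c i : 𝓞 K)
  rw [← hc, hkv] at hlt
  exact lt_irrefl _ hlt

variable (K) in
/-- **Outside finitely many primes no larger ball than the integers is killed.** -/
theorem exists_finite_bad : ∃ S : Set (HeightOneSpectrum (𝓞 K)), S.Finite ∧
    ∀ v ∉ S, ∀ n : ℤ, (∀ z : v.adicCompletion K, Valued.v z ≤ exp n → finChar v z = 1) →
      n ≤ 0 := by
  refine ⟨⋃ i, HeightOneSpectrum.Support (𝓞 K) (traceDual K i),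
    Set.finite_iUnion fun i => HeightOneSpectrum.Support.finite (𝓞 K) _, fun v hv n hn => ?_⟩
  by_contra hpos
  obtain ⟨i, hi⟩ := exists_bound (n := n) (by omega) hn
  refine hv (Set.mem_iUnion.2 ⟨i, lt_of_lt_of_le ?_ hi⟩)
  rw [← exp_zero]
  exact exp_lt_exp.2 (by omega)

theorem exists_finChar_ne_one (v : HeightOneSpectrum (𝓞 K)) :
    ∃ z : v.adicCompletion K, finChar v z ≠ 1 := by
  by_contra h
  push Not at h
  have hb : ∀ n : ℕ, ∃ i, exp ((n : ℤ) + 1) ≤ v.valuation K (traceDual K i) := fun n =>
    exists_bound (by omega) fun z _ => h z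
  choose i hi using hb
  set N := Finset.univ.sup fun j => (log (v.valuation K (traceDual K j))).toNat
  have h0 := (log_le_log exp_ne_zero
    ((Valuation.ne_zero_iff _).2 ((traceDual K).ne_zero _))).2 (hi N)
  simp only [log_exp] at h0
  have := Finset.le_sup (f := fun j => (log (v.valuation K (traceDual K j))).toNat)
    (Finset.mem_univ (i N))
  omega

/-! ### Duality at a prime -/

/-- The ball of radius `exp n`. -/
def ball (v : HeightOneSpectrum (𝓞 K)) (n : ℤ) : AddSubgroup (v.adicCompletion K) where
  carrier := {z | Valued.v z ≤ exp n}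
  zero_mem' := by simp
  add_mem' {a b} ha hb := by
    show Valued.v (a + b) ≤ exp n
    exact Valuation.map_add_le _ ha hb
  neg_mem' {a} ha := by
    show Valued.v (-a) ≤ exp n
    rwa [Valuation.map_neg]

theorem mem_ball {v : HeightOneSpectrum (𝓞 K)} {n : ℤ} {z : v.adicCompletion K} :
    z ∈ ball v n ↔ Valued.v z ≤ exp n := Iff.rfl

theorem isCompact_ball (v : HeightOneSpectrum (𝓞 K)) (n : ℤ) :
    IsCompact (ball v n : Set (v.adicCompletion K)) := by
  have hc : Valued.v (algebraMap K (v.adicCompletion K) ((unif v : K) ^ (-n))) = exp n := by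
    rw [valued_algebraMap, map_zpow₀, valuation_eq_exp, ord_unif, ← exp_zsmul]
    simp
  set c := algebraMap K (v.adicCompletion K) ((unif v : K) ^ (-n))
  have hc0 : c ≠ 0 := fun h => by rw [h, map_zero] at hc; exact exp_ne_zero hc.symm
  rw [show (ball v n : Set (v.adicCompletion K)) =
    (c * ·) '' (v.adicCompletionIntegers K : Set (v.adicCompletion K)) from ?_]
  · exact (FA.IdeleClass.isCompact_integers v).image (continuous_const.mul continuous_id)
  ext z
  refine ⟨fun hz => ⟨c⁻¹ * z, ?_, mul_inv_cancel_left₀ hc0 z⟩, ?_⟩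
  · rw [SetLike.mem_coe, HeightOneSpectrum.mem_adicCompletionIntegers, map_mul, map_inv₀, hc]
    exact inv_mul_le_one_of_le₀ hz zero_le
  · rintro ⟨w, hw, rfl⟩
    show Valued.v (c * w) ≤ exp n
    rw [map_mul, hc]
    exact mul_le_of_le_one_right' ((HeightOneSpectrum.mem_adicCompletionIntegers (𝓞 K) K v).1 hw)

theorem exists_mem_ball (v : HeightOneSpectrum (𝓞 K)) (z : v.adicCompletion K) :
    ∃ n : ℕ, z ∈ ball v n := by
  by_cases h : Valued.v z = 0
  · exact ⟨0, by rw [mem_ball, h]; exact zero_le⟩
  · refine ⟨(log (Valued.v z)).toNat, ?_⟩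
    rw [mem_ball]
    conv_lhs => rw [← exp_log h]
    exact exp_le_exp.2 (Int.self_le_toNat _)

theorem sigmaCompact_adicCompletion (v : HeightOneSpectrum (𝓞 K)) :
    SigmaCompactSpace (v.adicCompletion K) :=
  SigmaCompactSpace.of_countable (Set.range fun n : ℕ => (ball v n : Set (v.adicCompletion K)))
    (Set.countable_range _) (by rintro _ ⟨n, rfl⟩; exact isCompact_ball v n)
    (Set.eq_univ_of_forall fun z => Set.mem_sUnion.2 (by
      obtain ⟨n, hn⟩ := exists_mem_ball v z
      exact ⟨_, ⟨n, rfl⟩, hn⟩))

theorem locallyCompact_adicCompletion (v : HeightOneSpectrum (𝓞 K)) :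
    LocallyCompactSpace (v.adicCompletion K) :=
  (FA.IdeleClass.isCompact_integers v).locallyCompactSpace_of_mem_nhds_of_addGroup
    ((Valued.isOpen_valuationSubring (v.adicCompletion K)).mem_nhds (zero_mem _))

theorem finChar_nondegenerate {v : HeightOneSpectrum (𝓞 K)} {a : v.adicCompletion K}
    (h : ∀ z, finChar v (a * z) = 1) : a = 0 := by
  by_contra ha
  obtain ⟨z, hz⟩ := exists_finChar_ne_one v
  exact hz (by rw [← mul_inv_cancel_left₀ ha z]; exact h _)

/-- **Every character of the completion is a multiple of the standard one.** -/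
theorem exists_eq_finChar {v : HeightOneSpectrum (𝓞 K)} {χ : AddChar (v.adicCompletion K) Circle}
    (hc : Continuous χ) : ∃ a, ∀ z, χ z = finChar v (a * z) := by
  obtain ⟨k, hk⟩ := exists_exp_subset v
    (((Circle.isOpen_centeredArc (π / 2)).preimage hc).mem_nhds (show χ 0 ∈ Circle.centeredArc
      (π / 2) by
        rw [AddChar.map_zero_eq_one, Circle.mem_centeredArc (by linarith [Real.pi_pos])]
        simp [Real.pi_pos]))
  have hsmall : ∀ z ∈ ball v (-(k : ℤ)), χ z = 1 := fun z hz =>
    Circle.eq_one_of_forall_pow_mem_centeredArc_pi_div_two fun n _ => by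
      rw [← AddChar.map_nsmul_eq_pow]
      exact hk _ (by rw [sub_zero]; exact mem_ball.1 (nsmul_mem hz n))
  set A : ℕ → Set (v.adicCompletion K) := fun n =>
    {a | ∀ z ∈ ball v (n : ℤ), χ z = finChar v (a * z)} with hA
  have hne : ∀ n : ℕ, (A n).Nonempty := fun n => by
    haveI : CompactSpace (AddSubgroup.toSubgroup (ball v (n : ℤ))) :=
      isCompact_iff_compactSpace.1 (isCompact_ball v n)
    haveI : T2Space (AddSubgroup.toSubgroup (ball v (n : ℤ))) := inferInstance
    let ι : AddSubgroup.toSubgroup (ball v (n : ℤ)) →ₜ* Multiplicative (v.adicCompletion K) :=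
      ⟨(AddSubgroup.toSubgroup (ball v (n : ℤ))).subtype, continuous_subtype_val⟩
    have htop := CompactAbelian.eq_top_of_separates
      ((PontryaginDual.map ι).toMonoidHom.comp (pairHom (finChar v) (continuous_finChar v))).range
      fun z hz => by
        obtain ⟨y, hy⟩ := exists_finChar_ne_one v
        have hz0 : Multiplicative.toAdd (z : Multiplicative (v.adicCompletion K)) ≠ 0 := fun h0 =>
          hz (Subtype.ext (Multiplicative.toAdd.injective h0))
        refine ⟨_, ⟨Multiplicative.ofAdd (y / Multiplicative.toAdd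
          (z : Multiplicative (v.adicCompletion K))), rfl⟩, fun e => hy ?_⟩
        change finChar v (y / Multiplicative.toAdd (z : Multiplicative (v.adicCompletion K)) *
          Multiplicative.toAdd (z : Multiplicative (v.adicCompletion K))) = 1 at e
        rwa [div_mul_cancel₀ _ hz0] at e
    obtain ⟨a, ha⟩ := MonoidHom.mem_range.1 (htop.ge (Subgroup.mem_top
      (PontryaginDual.map ι (⟨AddChar.toMonoidHom χ, hc.comp continuous_toAdd⟩ :
        Multiplicative (v.adicCompletion K) →ₜ* Circle))))
    exact ⟨a.toAdd, fun z hz => (DFunLike.congr_fun ha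
      (⟨Multiplicative.ofAdd z, hz⟩ : AddSubgroup.toSubgroup (ball v (n : ℤ)))).symm⟩
  have hclosed : ∀ n, IsClosed (A n) := fun n => by
    simp only [hA, Set.setOf_forall]
    exact isClosed_iInter fun z => isClosed_iInter fun _ =>
      isClosed_eq continuous_const ((continuous_finChar v).comp (continuous_id.mul continuous_const))
  obtain ⟨y, hy⟩ := exists_finChar_ne_one v
  have hy0 : Valued.v y ≠ 0 := (Valuation.ne_zero_iff _).2 fun h0 => hy (by
    rw [h0, AddChar.map_zero_eq_one])
  have hsub : ∀ a ∈ A 0, ∀ b ∈ A 0, a - b ∈ ball v (log (Valued.v y)) := fun a ha b hb => by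
    by_contra hab
    rw [mem_ball, not_le, exp_log hy0] at hab
    have hab0 : a - b ≠ 0 := fun e => by rw [e, map_zero] at hab; exact not_lt_zero' hab
    refine hy ?_
    have hz : y / (a - b) ∈ ball v ((0 : ℕ) : ℤ) := by
      rw [mem_ball, map_div₀, Nat.cast_zero, exp_zero]
      exact div_le_one_of_le₀ hab.le zero_le
    rw [← mul_div_cancel₀ y hab0, sub_mul, AddChar.map_sub_eq_div, ← ha _ hz, ← hb _ hz, div_self']
  have hcpt : IsCompact (A 0) := by
    obtain ⟨a0, ha0⟩ := hne 0
    refine ((isCompact_ball v (log (Valued.v y))).image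
      (continuous_const.add continuous_id (f := fun _ => a0))).of_isClosed_subset (hclosed 0)
      fun a ha => ⟨a - a0, hsub a ha a0 ha0, add_sub_cancel _ _⟩
  obtain ⟨a, ha⟩ := IsCompact.nonempty_iInter_of_sequence_nonempty_isCompact_isClosed A
    (fun n b hb z hz =>
      hb z (mem_ball.2 (le_trans (mem_ball.1 hz) (exp_le_exp.2 (by push_cast; omega)))))
    hne hcpt hclosed
  refine ⟨a, fun z => ?_⟩
  obtain ⟨n, hn⟩ := exists_mem_ball v z
  exact Set.mem_iInter.1 ha n z hn

theorem finPair_bijective (v : HeightOneSpectrum (𝓞 K)) :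
    Function.Bijective (pairHom (finChar v) (continuous_finChar v)) :=
  pairHom_bijective _ (fun _ h => finChar_nondegenerate h) fun _ hc => exists_eq_finChar hc

/-- **The completion at a prime is its own dual.** -/
def finSelfDual (v : HeightOneSpectrum (𝓞 K)) :
    Multiplicative (v.adicCompletion K) ≃ₜ* PontryaginDual (Multiplicative (v.adicCompletion K)) :=
  haveI := sigmaCompact_adicCompletion v
  haveI := locallyCompact_adicCompletion v
  selfDual (continuous_finChar v) (finPair_bijective v)

end FA.AdeleDual

end
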