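import Fermat.Agent.AdeleDuality.Fundamental
import Mathlib.MeasureTheory.Integral.DominatedConvergence

/-!
# The Poisson formula of the adeles

The periodisation of a function is a continuous function on the compact group of classes with the
Fourier transforms at the field elements as coefficients, so it is the sum of its Fourier series.
-/

set_option autoImplicit false
set_option linter.unusedSectionVars false
set_option linter.style.haveILetI false

noncomputable section

open NumberField IsDedekindDomain MeasureTheory MeasureTheory.Measure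
open Filter Topology Module
open scoped Classical ENNReal

set_option maxHeartbeats 800000

namespace FA.AdeleDual

universe u

variable {K : Type u} [Field K] [NumberField K]

local notation "𝐀" => AdeleRing (𝓞 K) K
local notation "𝐊" => algebraMap K (AdeleRing (𝓞 K) K)

/-- The translates by the field are summable, uniformly on compact sets. -/
def NormallySummable (f : AdeleRing (𝓞 K) K → ℂ) : Prop :=
  ∀ C : Set (AdeleRing (𝓞 K) K), IsCompact C → ∃ u : K → ℝ, Summable u ∧
    ∀ x ∈ C, ∀ k : K, ‖f (x + algebraMap K (AdeleRing (𝓞 K) K) k)‖ ≤ u k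

variable [MeasurableSpace (AdeleRing (𝓞 K) K)] [BorelSpace (AdeleRing (𝓞 K) K)]

/-- **The Fourier transform on the adeles.** -/
def adeleFourier (μ : Measure (AdeleRing (𝓞 K) K)) (f : AdeleRing (𝓞 K) K → ℂ)
    (a : AdeleRing (𝓞 K) K) : ℂ :=
  ∫ x, f x * starRingEnd ℂ ((stdChar K (a * x) : Circle) : ℂ) ∂μ

/-- The translations by the field elements, reversed. -/
def negEquiv : K ≃ principalAdeles K :=
  Equiv.ofBijective (fun k => ⟨-𝐊 k, neg_mem (mem_principalAdeles.2 ⟨k, rfl⟩)⟩)
    ⟨fun a b h => AdeleRing.algebraMap_injective (𝓞 K) K (neg_injective (congrArg Subtype.val h)),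
      fun ⟨x, hx⟩ => by
        obtain ⟨k, rfl⟩ := mem_principalAdeles.1 hx
        exact ⟨-k, Subtype.ext (show -𝐊 (-k) = 𝐊 k by rw [map_neg, neg_neg])⟩⟩

theorem neg_negEquiv_vadd (k : K) (x : 𝐀) : -(negEquiv k) +ᵥ x = x + 𝐊 k := by
  show -(-𝐊 k) + x = x + 𝐊 k
  rw [neg_neg, add_comm]

variable {μ : Measure (AdeleRing (𝓞 K) K)} [IsAddHaarMeasure μ] {f : AdeleRing (𝓞 K) K → ℂ}

theorem integrable_of_normallySummable (hμ : μ (funDom K) = 1) (hf : Continuous f)
    (hn : NormallySummable f) : Integrable f μ := by
  obtain ⟨u, hu, hub⟩ := hn (funBox K) (isCompact_funBox K)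
  have hu0 : ∀ k, 0 ≤ u k := fun k => by
    obtain ⟨g, hg, -⟩ := existsUnique_mem_funDom (0 : 𝐀)
    exact (norm_nonneg _).trans (hub _ (funDom_subset_funBox K hg) k)
  refine ⟨hf.measurable.aestronglyMeasurable, ?_⟩
  rw [hasFiniteIntegral_iff_enorm, (isAddFundamentalDomain_funDom μ).lintegral_eq_tsum',
    ← negEquiv.tsum_eq]
  refine lt_of_le_of_lt (ENNReal.tsum_le_tsum fun k => ?_)
    (ENNReal.ofReal_tsum_of_nonneg hu0 hu ▸ ENNReal.ofReal_lt_top)
  calc ∫⁻ x in funDom K, ‖f (-(negEquiv k) +ᵥ x)‖ₑ ∂μ
      ≤ ∫⁻ _x in funDom K, ENNReal.ofReal (u k) ∂μ := by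
        refine setLIntegral_mono measurable_const fun x hx => ?_
        rw [neg_negEquiv_vadd, ← ofReal_norm]
        exact ENNReal.ofReal_le_ofReal (hub x (funDom_subset_funBox K hx) k)
    _ = ENNReal.ofReal (u k) := by rw [setLIntegral_const, hμ, mul_one]

theorem continuous_periodization (hf : Continuous f) (hn : NormallySummable f) :
    Continuous fun x : 𝐀 => ∑' k : K, f (x + 𝐊 k) := by
  haveI := locallyCompact_adele K
  refine continuous_iff_continuousAt.2 fun x => ?_
  obtain ⟨C, hC, hCx⟩ := exists_compact_mem_nhds x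
  obtain ⟨u, hu, hub⟩ := hn C hC
  exact (continuousOn_tsum (fun k => (hf.comp (continuous_id.add continuous_const)).continuousOn)
    hu fun k y hy => hub y hy k).continuousAt hCx

theorem periodization_add (x : 𝐀) (c : K) :
    ∑' k : K, f (x + 𝐊 c + 𝐊 k) = ∑' k : K, f (x + 𝐊 k) := by
  rw [← (Equiv.addLeft c).tsum_eq fun k => f (x + 𝐊 k)]
  refine tsum_congr fun k => ?_
  rw [Equiv.coe_addLeft, map_add, add_assoc]

/-- **The coefficients of the periodisation are the Fourier transforms.** -/
theorem setIntegral_periodization (hμ : μ (funDom K) = 1) (hf : Continuous f)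
    (hn : NormallySummable f) (b : K) :
    ∫ x in funDom K, (∑' k : K, f (x + 𝐊 k)) *
        starRingEnd ℂ ((stdChar K (𝐊 b * x) : Circle) : ℂ) ∂μ = adeleFourier μ f (𝐊 b) := by
  haveI := countable_field K
  set c : 𝐀 → ℂ := fun x => starRingEnd ℂ ((stdChar K (𝐊 b * x) : Circle) : ℂ) with hc
  have hcc : Continuous c := Complex.continuous_conj.comp (continuous_subtype_val.comp
    ((continuous_stdChar K).comp (continuous_const.mul continuous_id)))
  have hc1 : ∀ x, ‖c x‖ = 1 := fun x => by rw [hc, RCLike.norm_conj, Circle.norm_coe]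
  have hcp : ∀ x k, c (x + 𝐊 k) = c x := fun x k => by
    simp only [hc]
    rw [mul_add, AddChar.map_add_eq_mul, ← map_mul 𝐊 b k, stdChar_algebraMap, mul_one]
  have hint := integrable_of_normallySummable hμ hf hn
  have hg : Integrable (fun x => f x * c x) μ := hint.mono (hf.mul hcc).measurable.aestronglyMeasurable
    (Eventually.of_forall fun x => by rw [norm_mul, hc1, mul_one])
  obtain ⟨u, hu, hub⟩ := hn (funBox K) (isCompact_funBox K)
  show _ = ∫ x, f x * c x ∂μ
  rw [(isAddFundamentalDomain_funDom μ).integral_eq_tsum' _ hg, ← negEquiv.tsum_eq]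
  simp only [neg_negEquiv_vadd, hcp]
  haveI : IsFiniteMeasure (μ.restrict (funDom K)) :=
    ⟨by rw [Measure.restrict_apply_univ, hμ]; exact ENNReal.one_lt_top⟩
  have hbd : ∀ k : K, ∀ x ∈ funDom K, ‖f (x + 𝐊 k) * c x‖ ≤ u k := fun k x hx => by
    rw [norm_mul, hc1, mul_one]
    exact hub x (funDom_subset_funBox K hx) k
  have hI : ∀ k : K, Integrable (fun x => f (x + 𝐊 k) * c x) (μ.restrict (funDom K)) := fun k =>
    Integrable.mono' (integrable_const (u k))
      ((hf.comp (continuous_id.add continuous_const)).mul hcc).measurable.aestronglyMeasurable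
      (ae_restrict_of_forall_mem (measurableSet_funDom K) (hbd k))
  rw [integral_tsum_of_summable_integral_norm hI ?_]
  · exact setIntegral_congr_fun (measurableSet_funDom K) fun x _ => tsum_mul_right.symm
  · refine Summable.of_nonneg_of_le (fun k => integral_nonneg fun x => norm_nonneg _) (fun k => ?_) hu
    refine (integral_mono_ae (hI k).norm (integrable_const (u k))
      (ae_restrict_of_forall_mem (measurableSet_funDom K) (hbd k))).trans (le_of_eq ?_)
    rw [integral_const, measureReal_def, Measure.restrict_apply_univ, hμ, ENNReal.toReal_one,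
      one_smul]

/-- **The Poisson formula.** -/
theorem poisson (hμ : μ (funDom K) = 1) (hf : Continuous f) (hn : NormallySummable f)
    (hs : Summable fun a : K => ‖adeleFourier μ f (𝐊 a)‖) (x : 𝐀) :
    ∑' k : K, f (x + 𝐊 k) =
      ∑' a : K, adeleFourier μ f (𝐊 a) * ((stdChar K (𝐊 a * x) : Circle) : ℂ) := by
  haveI := countable_field K
  letI : MeasurableSpace (Multiplicative (𝐀 ⧸ principalAdeles K)) := borel _
  haveI : BorelSpace (Multiplicative (𝐀 ⧸ principalAdeles K)) := ⟨rfl⟩
  set q : 𝐀 → Multiplicative (𝐀 ⧸ principalAdeles K) :=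
    fun x => Multiplicative.ofAdd (QuotientAddGroup.mk x) with hq
  have hqc : Continuous q := continuous_ofAdd.comp continuous_quotient_mk'
  have hqs : Function.Surjective q := fun g => by
    obtain ⟨y, hy⟩ := QuotientAddGroup.mk_surjective g.toAdd
    exact ⟨y, congrArg Multiplicative.ofAdd hy⟩
  set ν := Measure.map q (μ.restrict (funDom K)) with hν
  haveI : IsProbabilityMeasure ν := ⟨by
    rw [hν, Measure.map_apply hqc.measurable MeasurableSet.univ, Set.preimage_univ,
      Measure.restrict_apply_univ, hμ]⟩
  haveI : IsMulLeftInvariant ν := ⟨fun g => by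
    obtain ⟨t, rfl⟩ := hqs g
    refine Measure.ext fun B hB => ?_
    have hA : MeasurableSet (q ⁻¹' B) := hqc.measurable hB
    have hB' : MeasurableSet ((q t * ·) ⁻¹' B) := (continuous_const_mul (q t)).measurable hB
    rw [Measure.map_apply (continuous_const_mul (q t)).measurable hB, hν,
      Measure.map_apply hqc.measurable hB', Measure.map_apply hqc.measurable hB,
      Measure.restrict_apply (hqc.measurable hB'), Measure.restrict_apply hA,
      show q ⁻¹' ((q t * ·) ⁻¹' B) = (t + ·) ⁻¹' (q ⁻¹' B) from rfl]
    have ht : IsAddFundamentalDomain (principalAdeles K) ((-t + ·) ⁻¹' funDom K) μ := by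
      refine IsAddFundamentalDomain.mk' ((measurableSet_funDom K).preimage
        (continuous_const_add (-t)).measurable).nullMeasurableSet fun y => ?_
      refine (existsUnique_congr fun g => ?_).1 (existsUnique_mem_funDom (-t + y))
      show (g : 𝐀) + (-t + y) ∈ funDom K ↔ -t + ((g : 𝐀) + y) ∈ funDom K
      rw [add_left_comm]
    conv_rhs => rw [(isAddFundamentalDomain_funDom μ).measure_set_eq ht hA (fun g => by
      ext y
      show q ((g : 𝐀) + y) ∈ B ↔ q y ∈ B
      rw [show q ((g : 𝐀) + y) = q y from congrArg Multiplicative.ofAdd (by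
        rw [QuotientAddGroup.mk_add, (QuotientAddGroup.eq_zero_iff _).2 g.2, zero_add])])]
    rw [← measure_preimage_add μ t (q ⁻¹' B ∩ (-t + ·) ⁻¹' funDom K), Set.preimage_inter,
      ← Set.preimage_comp (g := fun y : 𝐀 => -t + y),
      show ((fun y : 𝐀 => -t + y) ∘ fun y => t + y) = id from funext fun y => neg_add_cancel_left t y,
      Set.preimage_id]⟩
  haveI : IsOpenPosMeasure ν := isOpenPosMeasure_of_mulLeftInvariant_of_compact Set.univ
    isCompact_univ (by rw [measure_univ]; exact one_ne_zero)
  set Φ : 𝐀 → ℂ := fun y => ∑' k : K, f (y + 𝐊 k) with hΦ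
  set Φq : Multiplicative (𝐀 ⧸ principalAdeles K) → ℂ := fun g => Φ (Function.surjInv hqs g)
    with hΦq
  have hfac : ∀ y, Φq (q y) = Φ y := fun y => by
    obtain ⟨c, hc⟩ := mem_principalAdeles.1 (QuotientAddGroup.eq.1
      (congrArg Multiplicative.toAdd (Function.surjInv_eq hqs (q y))).symm)
    show Φ (Function.surjInv hqs (q y)) = Φ y
    rw [← add_neg_cancel_left y (Function.surjInv hqs (q y)), ← hc]
    exact periodization_add y c
  have hΦc : Continuous Φq := by
    have h1 : Continuous fun p : 𝐀 ⧸ principalAdeles K => Φq (Multiplicative.ofAdd p) :=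
      QuotientAddGroup.isOpenQuotientMap_mk.continuous_comp_iff.1
        ((continuous_periodization hf hn).congr fun y => (hfac y).symm)
    exact h1.comp continuous_toAdd
  set T : K → Multiplicative (𝐀 ⧸ principalAdeles K) → ℂ :=
    fun a g => adeleFourier μ f (𝐊 a) * ((classChar a g : Circle) : ℂ) with hT
  have hTn : ∀ a g, ‖T a g‖ = ‖adeleFourier μ f (𝐊 a)‖ := fun a g => by
    rw [hT, norm_mul, Circle.norm_coe, mul_one]
  have hSc : Continuous fun g => ∑' a, T a g :=
    continuous_tsum (fun a => continuous_const.mul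
      (continuous_subtype_val.comp (map_continuous (classChar a)))) hs fun a g => (hTn a g).le
  have hzero : (⟨fun g => Φq g - ∑' a, T a g, hΦc.sub hSc⟩ :
      C(Multiplicative (𝐀 ⧸ principalAdeles K), ℂ)) = 0 := by
    refine CompactAbelian.eq_zero_of_coeff ν fun ψ hψc hψu => ?_
    obtain ⟨b, hb⟩ := classCharHom_bijective.2
      (⟨{ toFun := fun g => ⟨((ψ g : ℂˣ) : ℂ), mem_sphere_zero_iff_norm.2 (hψu g)⟩
          map_one' := Circle.ext (by simp)
          map_mul' := fun g h => Circle.ext (by simp) },
        (Units.continuous_val.comp hψc).subtype_mk _⟩ :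
        Multiplicative (𝐀 ⧸ principalAdeles K) →ₜ* Circle)
    have hb' : ∀ g, ((ψ g : ℂˣ) : ℂ) = ((classChar b.toAdd g : Circle) : ℂ) := fun g =>
      (congrArg Subtype.val (DFunLike.congr_fun hb g)).symm
    set d : Multiplicative (𝐀 ⧸ principalAdeles K) → ℂ :=
      fun g => starRingEnd ℂ ((ψ g : ℂˣ) : ℂ) with hd
    have hdc : Continuous d := Complex.continuous_conj.comp (Units.continuous_val.comp hψc)
    have hd1 : ∀ g, ‖d g‖ = 1 := fun g => by rw [hd, RCLike.norm_conj, hψu]
    have hΦi : ∫ g, d g * Φq g ∂ν = adeleFourier μ f (𝐊 b.toAdd) := by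
      rw [hν, integral_map hqc.measurable.aemeasurable
        (show Continuous fun g => d g * Φq g from hdc.mul hΦc).measurable.aestronglyMeasurable,
        ← setIntegral_periodization hμ hf hn b.toAdd]
      refine setIntegral_congr_fun (measurableSet_funDom K) fun y _ => ?_
      simp only [hd, hb', hfac, hΦ]
      rw [mul_comm]
      rfl
    have hTi : ∫ g, d g * ∑' a, T a g ∂ν = adeleFourier μ f (𝐊 b.toAdd) := by
      simp only [← tsum_mul_left]
      have hI : ∀ a, Integrable (fun g => d g * T a g) ν := fun a =>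
        CompactAbelian.integrable_of_continuous ν (hdc.mul (continuous_const.mul
          (continuous_subtype_val.comp (map_continuous (classChar a)))))
      rw [← integral_tsum_of_summable_integral_norm hI (hs.congr fun a => ?_), tsum_eq_single b.toAdd]
      · have h1 : ∀ g, d g * T b.toAdd g = adeleFourier μ f (𝐊 b.toAdd) := fun g => by
          simp only [hd, hT, hb']
          rw [mul_left_comm, Complex.conj_mul', Circle.norm_coe]
          simp
        simp only [h1, integral_const, probReal_univ, one_smul]
      · intro a hab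
        set φ := classCharHom (K := K) (Multiplicative.ofAdd a / b)
        have hne : φ ≠ 1 := fun e => hab (by
          have h2 : Multiplicative.ofAdd a / b = 1 :=
            classCharHom_bijective.1 (e.trans (map_one classCharHom).symm)
          rw [← div_eq_one.1 h2, toAdd_ofAdd])
        have h3 : ∀ g, d g * T a g = adeleFourier μ f (𝐊 a) * ((φ g : Circle) : ℂ) := fun g => by
          simp only [hd, hT, hb', φ]
          rw [mul_left_comm]
          congr 1
          rw [map_div, div_eq_mul_inv, CompactAbelian.dual_mul_apply,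
            CompactAbelian.dual_inv_apply, Circle.coe_mul, Circle.coe_inv_eq_conj, mul_comm]
          rfl
        simp only [h3, integral_const_mul]
        let ψ' : Multiplicative (𝐀 ⧸ principalAdeles K) →* ℂˣ := Circle.toUnits.comp φ.toMonoidHom
        have hψ' : ψ' ≠ 1 := fun e => hne (PontryaginDual.ext fun g =>
          Circle.ext (congrArg Units.val (DFunLike.congr_fun e g)))
        rw [show ∫ g, ((φ g : Circle) : ℂ) ∂ν = 0 from CompactAbelian.integral_char_eq_zero ν hψ',
          mul_zero]
      · simp only [norm_mul, hd1, one_mul, hTn, integral_const, probReal_univ, one_smul]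
    show ∫ g, d g * (Φq g - ∑' a, T a g) ∂ν = 0
    simp only [mul_sub]
    rw [integral_sub
      (CompactAbelian.integrable_of_continuous ν (show Continuous fun g => d g * Φq g from hdc.mul hΦc))
      (CompactAbelian.integrable_of_continuous ν
        (show Continuous fun g => d g * ∑' a, T a g from hdc.mul hSc)), hΦi, hTi, sub_self]
  have h := sub_eq_zero.1 (DFunLike.congr_fun hzero (q x))
  rw [hfac] at h
  exact h

end FA.AdeleDual

end
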