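import Fermat.Agent.AdeleDuality.Decay
import Fermat.Agent.AdeleDuality.Poisson
import Mathlib.Analysis.Distribution.SchwartzSpace.Fourier
import Mathlib.MeasureTheory.Measure.Haar.Unique
import Mathlib.MeasureTheory.Measure.Haar.InnerProductSpace

/-!
# The Schwartz-Bruhat functions of the adeles

A Schwartz function at infinity times the indicator of a coset of a multiple of the integral adeles
has summable translates, and Fourier transforms at the field vanishing outside a lattice, where they
are values of the Fourier transform of the Schwartz function.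
-/

set_option autoImplicit false
set_option linter.unusedSectionVars false
set_option linter.style.haveILetI false

noncomputable section

open NumberField IsDedekindDomain MeasureTheory MeasureTheory.Measure
open Filter Topology Module
open scoped Classical Real FourierTransform SchwartzMap RealInnerProductSpace

set_option maxHeartbeats 800000

namespace FA.AdeleDual

universe u

variable {K : Type u} [Field K] [NumberField K]

local notation "𝐀" => AdeleRing (𝓞 K) K
local notation "𝐊" => algebraMap K (AdeleRing (𝓞 K) K)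
local notation "𝐅" => algebraMap K (FiniteAdeleRing (𝓞 K) K)

/-- The coset `c + m Ô` in the adeles, at the finite places. -/
def finCoset (c : FiniteAdeleRing (𝓞 K) K) (m : ℕ) : Set (AdeleRing (𝓞 K) K) :=
  {x | algebraMap K (FiniteAdeleRing (𝓞 K) K) (m : K)⁻¹ * (x.2 - c) ∈ finInt K}

theorem isClopen_finCoset (c : FiniteAdeleRing (𝓞 K) K) (m : ℕ) : IsClopen (finCoset c m) := by
  have hc : Continuous fun x : 𝐀 => 𝐅 (m : K)⁻¹ * (x.2 - c) :=
    continuous_const.mul (continuous_snd.sub continuous_const)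
  exact IsClopen.preimage ⟨(finInt K).isClosed_of_isOpen (isOpen_finInt K), isOpen_finInt K⟩ hc

theorem sub_mem_of_mem_finCoset {c : FiniteAdeleRing (𝓞 K) K} {m : ℕ} (hm : m ≠ 0) {x : 𝐀}
    (hx : x ∈ finCoset c m) : x.2 - c ∈ finInt K := by
  have hmK : (m : K) ≠ 0 := Nat.cast_ne_zero.2 hm
  rw [show x.2 - c = 𝐅 (m : K) * (𝐅 (m : K)⁻¹ * (x.2 - c)) by
    rw [← mul_assoc, ← map_mul, mul_inv_cancel₀ hmK, map_one, one_mul]]
  refine mem_finInt.2 fun v => ?_
  show Valued.v (algebraMap K (v.adicCompletion K) (m : K) * _) ≤ 1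
  rw [map_mul, show (m : K) = ((m : 𝓞 K) : K) by simp]
  exact mul_le_one' (valued_integer_le_one v _) (mem_finInt.1 hx v)

/-- A pure Schwartz-Bruhat function. -/
def pureSB (h : 𝓢(CoordSpace K, ℂ)) (c : FiniteAdeleRing (𝓞 K) K) (m : ℕ) :
    AdeleRing (𝓞 K) K → ℂ :=
  (finCoset c m).indicator fun x => h (coordE K x.1)

variable (K) in
/-- **The Schwartz-Bruhat space.** -/
def schwartzBruhat : Submodule ℂ (AdeleRing (𝓞 K) K → ℂ) :=
  Submodule.span ℂ {f | ∃ h c m, m ≠ 0 ∧ f = pureSB h c m}

theorem continuous_pureSB (h : 𝓢(CoordSpace K, ℂ)) (c : FiniteAdeleRing (𝓞 K) K) (m : ℕ) :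
    Continuous (pureSB h c m) := by
  have hh : Continuous fun x : 𝐀 => h (coordE K x.1) :=
    h.continuous.comp (continuous_coordE.comp continuous_fst)
  exact hh.indicator fun x hx =>
    absurd hx (by rw [(isClopen_finCoset c m).frontier_eq]; exact Set.notMem_empty x)

/-- A compact set of adeles meets finitely many translates of the integral adeles. -/
theorem exists_finite_cover {C : Set 𝐀} (hC : IsCompact C) :
    ∃ J : Finset K, ∀ x ∈ C, ∃ j ∈ J, x.2 - 𝐅 j ∈ finInt K := by
  have ho : ∀ j : K, IsOpen {x : 𝐀 | x.2 - 𝐅 j ∈ finInt K} := fun j =>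
    (isOpen_finInt K).preimage (continuous_snd.sub continuous_const)
  obtain ⟨J, hJ⟩ := hC.elim_finite_subcover _ ho fun x _ => Set.mem_iUnion.2 (exists_sub_mem x.2)
  exact ⟨J, fun x hx => Set.mem_iUnion₂.1 (hJ hx) |>.imp fun j hj => ⟨hj.1, hj.2⟩⟩

theorem normallySummable_pureSB (h : 𝓢(CoordSpace K, ℂ)) (c : FiniteAdeleRing (𝓞 K) K) {m : ℕ}
    (hm : m ≠ 0) : NormallySummable (pureSB h c m) := by
  intro C hC
  obtain ⟨C₀, hC₀, hh⟩ := norm_schwartz_le h
  have hcc : Continuous fun x : 𝐀 => ‖coordE K x.1‖ :=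
    (continuous_coordE.comp continuous_fst).norm
  obtain ⟨R, hR⟩ := (hC.image hcc).bddAbove
  obtain ⟨J, hJ⟩ := exists_finite_cover hC
  obtain ⟨c₀, hc₀⟩ := exists_sub_mem c
  set M := C₀ * (1 + |R|) ^ (2 * Fintype.card (Free.ChooseBasisIndex ℤ (𝓞 K)))
  refine ⟨fun k => ∑ j ∈ J, M * (Set.range fun r : 𝓞 K => (c₀ - j) + (r : K)).indicator
    (fun k => weight (coordE K (algebraMap K (InfiniteAdeleRing K) k))) k,
    summable_sum fun j _ => (summable_weight_translate _).mul_left M, fun x hx k => ?_⟩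
  have hM : 0 ≤ M := by positivity
  have hpos : ∀ j ∈ J, 0 ≤ M * (Set.range fun r : 𝓞 K => (c₀ - j) + (r : K)).indicator
      (fun k => weight (coordE K (algebraMap K (InfiniteAdeleRing K) k))) k := fun j _ =>
    mul_nonneg hM (Set.indicator_nonneg (fun _ _ => weight_nonneg _) _)
  by_cases hk : x + 𝐊 k ∈ finCoset c m
  · obtain ⟨j, hj, hjx⟩ := hJ x hx
    have h1 := sub_mem_of_mem_finCoset hm hk
    have h2 : 𝐅 (k + j - c₀) ∈ finInt K := by
      have h3 := add_mem (sub_mem h1 hjx) hc₀
      rwa [show (x + 𝐊 k).2 - c - (x.2 - 𝐅 j) + (c - 𝐅 c₀) = 𝐅 (k + j - c₀) by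
        rw [show (x + 𝐊 k).2 = x.2 + 𝐅 k from rfl, map_sub, map_add]; abel] at h3
    obtain ⟨r, hr⟩ := exists_integer_of_mem h2
    refine le_trans ?_ (Finset.single_le_sum hpos hj)
    rw [Set.indicator_of_mem (show k ∈ Set.range fun r : 𝓞 K => (c₀ - j) + (r : K) from
      ⟨r, by show c₀ - j + (r : K) = k; rw [hr]; ring⟩), pureSB, Set.indicator_of_mem hk,
      show (x + 𝐊 k).1 = x.1 + algebraMap K (InfiniteAdeleRing K) k from rfl, map_add]
    refine (hh _).trans ?_
    rw [mul_assoc]
    refine mul_le_mul_of_nonneg_left ((weight_add_le _ _).trans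
      (mul_le_mul_of_nonneg_right (pow_le_pow_left₀ (by positivity)
        (add_le_add le_rfl ((hR ⟨x, hx, rfl⟩).trans (le_abs_self R))) _) (weight_nonneg _))) hC₀
  · rw [pureSB, Set.indicator_of_notMem hk, norm_zero]
    exact Finset.sum_nonneg hpos

/-! ### The Fourier transform -/

/-- The coordinates of the functional `Tr (a ·)`. -/
def traceVec (a : K) : CoordSpace K :=
  WithLp.toLp 2 fun j => ((Algebra.trace ℚ K (a * integralBasis K j) : ℚ) : ℝ)

theorem traceInf_eq_inner (a : K) (y : InfiniteAdeleRing K) :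
    traceInf K (algebraMap K (InfiniteAdeleRing K) a * y) = ⟪coordE K y, traceVec a⟫ := by
  conv_lhs => rw [← fromCoord_coord y]
  rw [fromCoord, Finset.mul_sum, _root_.map_sum, PiLp.inner_apply]
  refine Finset.sum_congr rfl fun j _ => ?_
  rw [mul_left_comm, traceInf_realScalar_mul, ← map_mul, traceInf_algebraMap, coordE_apply]
  show _ = inner ℝ (coord y j) ((Algebra.trace ℚ K (a * integralBasis K j) : ℚ) : ℝ)
  rw [RCLike.inner_apply, conj_trivial, mul_comm]

theorem traceVec_injective : Function.Injective (traceVec (K := K)) := fun a b h => by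
  refine (traceDual K).ext_elem fun j => ?_
  rw [traceDual, LinearMap.BilinForm.dualBasis_repr_apply,
    LinearMap.BilinForm.dualBasis_repr_apply, Algebra.traceForm_apply, Algebra.traceForm_apply]
  have := congrFun (congrArg WithLp.ofLp h) j
  exact Rat.cast_injective this

variable [MeasurableSpace (AdeleRing (𝓞 K) K)] [BorelSpace (AdeleRing (𝓞 K) K)]
variable {μ : Measure (AdeleRing (𝓞 K) K)} [IsAddHaarMeasure μ]

theorem adeleFourier_pureSB_eq_zero (h : 𝓢(CoordSpace K, ℂ)) (c : FiniteAdeleRing (𝓞 K) K)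
    {m : ℕ} (hm : m ≠ 0) {a : K} {r : 𝓞 K}
    (hr : expNeg (traceInf K (algebraMap K (InfiniteAdeleRing K) (a * m * r))) ≠ 1) :
    adeleFourier μ (pureSB h c m) (𝐊 a) = 0 := by
  have hmK : (m : K) ≠ 0 := Nat.cast_ne_zero.2 hm
  set t : 𝐀 := inFin K (𝐅 ((m : K) * r))
  have hper : ∀ x, pureSB h c m (x + t) = pureSB h c m x := fun x => by
    have h1 : (x + t).1 = x.1 := add_zero x.1
    have h2 : x + t ∈ finCoset c m ↔ x ∈ finCoset c m := by
      show 𝐅 (m : K)⁻¹ * (x.2 + 𝐅 ((m : K) * r) - c) ∈ finInt K ↔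
        𝐅 (m : K)⁻¹ * (x.2 - c) ∈ finInt K
      rw [add_sub_right_comm, mul_add, ← map_mul, inv_mul_cancel_left₀ hmK]
      exact (finInt K).add_mem_cancel_right (mem_finInt.2 fun v => valued_integer_le_one v r)
    unfold pureSB
    by_cases hx : x ∈ finCoset c m
    · rw [Set.indicator_of_mem hx, Set.indicator_of_mem (h2.2 hx), h1]
    · rw [Set.indicator_of_notMem hx, Set.indicator_of_notMem fun h' => hx (h2.1 h')]
  have hz : stdChar K (𝐊 a * t) ≠ 1 := fun e => hr (by
    have h3 : 𝐊 (a * m * r) = inInf K (algebraMap K (InfiniteAdeleRing K) (a * m * r)) + 𝐊 a * t := by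
      rw [mul_inFin, ← map_mul, mul_assoc]
      exact (inInf_add_inFin (𝐊 (a * ((m : K) * r)))).symm
    have h4 := stdChar_algebraMap (a * m * r)
    rwa [h3, AddChar.map_add_eq_mul, e, mul_one, stdChar_inInf] at h4)
  have hI := integral_add_right_eq_self (μ := μ)
    (fun x => pureSB h c m x * starRingEnd ℂ ((stdChar K (𝐊 a * x) : Circle) : ℂ)) t
  simp only [hper, mul_add, AddChar.map_add_eq_mul, Circle.coe_mul, map_mul, ← mul_assoc,
    integral_mul_const] at hI
  by_contra hne
  refine hz (Circle.ext ((starRingEnd ℂ).injective ?_))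
  rw [Circle.coe_one, map_one]
  exact mul_left_cancel₀ hne (hI.trans (mul_one _).symm)

/-- **The coset pushes the Haar measure to a multiple of the Lebesgue measure.** -/
theorem exists_map_finCoset (μ : Measure (AdeleRing (𝓞 K) K)) [IsAddHaarMeasure μ]
    (c : FiniteAdeleRing (𝓞 K) K) {m : ℕ} (hm : m ≠ 0) :
    ∃ r : NNReal, Measure.map (fun x : AdeleRing (𝓞 K) K => coordE K x.1)
      (μ.restrict (finCoset c m)) = r • (volume : Measure (CoordSpace K)) := by
  set ρ : Measure (CoordSpace K) := Measure.map (fun x : 𝐀 => coordE K x.1) (μ.restrict (finCoset c m))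
    with hρ
  have hcE : Continuous fun x : 𝐀 => coordE K x.1 := continuous_coordE.comp continuous_fst
  haveI : IsAddLeftInvariant ρ := ⟨fun s => by
    set t : 𝐀 := inInf K (fromCoord K (WithLp.ofLp s))
    refine Measure.ext fun B hB => ?_
    have hB' : MeasurableSet ((s + ·) ⁻¹' B) := (continuous_const_add s).measurable hB
    rw [Measure.map_apply (continuous_const_add s).measurable hB, hρ,
      Measure.map_apply hcE.measurable hB', Measure.map_apply hcE.measurable hB,
      Measure.restrict_apply (hcE.measurable hB'), Measure.restrict_apply (hcE.measurable hB)]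
    conv_rhs => rw [← measure_preimage_add μ t]
    congr 1
    ext x
    have h1 : coordE K (t + x).1 = s + coordE K x.1 := by
      rw [show (t + x).1 = fromCoord K (WithLp.ofLp s) + x.1 from rfl, map_add]
      congr 1
      ext i
      rw [coordE_apply, coord_fromCoord]
    have h2 : t + x ∈ finCoset c m ↔ x ∈ finCoset c m := by
      show 𝐅 (m : K)⁻¹ * ((0 : FiniteAdeleRing (𝓞 K) K) + x.2 - c) ∈ finInt K ↔ _
      rw [zero_add]
      rfl
    simp only [Set.mem_inter_iff, Set.mem_preimage, h1, h2]⟩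
  haveI : IsFiniteMeasureOnCompacts ρ := ⟨fun B hB => by
    rw [hρ, Measure.map_apply hcE.measurable hB.measurableSet,
      Measure.restrict_apply (hcE.measurable hB.measurableSet)]
    obtain ⟨k₀, hk₀⟩ := exists_sub_mem c
    have hsub : (fun x : 𝐀 => coordE K x.1) ⁻¹' B ∩ finCoset c m ⊆
        (fun p : (Free.ChooseBasisIndex ℤ (𝓞 K) → ℝ) × FiniteAdeleRing (𝓞 K) K =>
          inInf K (fromCoord K p.1) + inFin K (𝐅 k₀ + p.2)) ''
            ((WithLp.ofLp '' B) ×ˢ (finInt K : Set (FiniteAdeleRing (𝓞 K) K))) := fun x hx =>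
      ⟨(coord x.1, x.2 - 𝐅 k₀), ⟨⟨coordE K x.1, hx.1, rfl⟩, by
        show x.2 - 𝐅 k₀ ∈ finInt K
        rw [← sub_add_sub_cancel x.2 c (𝐅 k₀)]
        exact add_mem (sub_mem_of_mem_finCoset hm hx.2) hk₀⟩, by
        show inInf K (fromCoord K (coord x.1)) + inFin K (𝐅 k₀ + (x.2 - 𝐅 k₀)) = x
        rw [fromCoord_coord, add_sub_cancel, inInf_add_inFin]⟩
    refine (measure_mono hsub).trans_lt (IsCompact.measure_lt_top ?_)
    exact ((hB.image (PiLp.continuous_ofLp 2 _)).prod (isCompact_finInt K)).image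
      ((continuous_inInf.comp (continuous_fromCoord.comp continuous_fst)).add
        (continuous_inFin.comp (continuous_const.add continuous_snd)))⟩
  exact ⟨addHaarScalarFactor ρ volume, isAddLeftInvariant_eq_smul ρ volume⟩

theorem adeleFourier_pureSB_bound (h : 𝓢(CoordSpace K, ℂ))
    (c : FiniteAdeleRing (𝓞 K) K) {m : ℕ} (hm : m ≠ 0) :
    ∃ C : ℝ, 0 ≤ C ∧ ∀ a : K, ‖adeleFourier μ (pureSB h c m) (𝐊 a)‖ ≤
      C * weight (traceVec a) := by
  obtain ⟨r, hρ⟩ := exists_map_finCoset μ c hm
  have hcE : Continuous fun x : 𝐀 => coordE K x.1 := continuous_coordE.comp continuous_fst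
  obtain ⟨C₀, hC₀, hh⟩ := norm_schwartz_le (𝓕 h)
  refine ⟨(r : ℝ) * C₀, by positivity, fun a => ?_⟩
  by_cases ha : ∀ r : 𝓞 K, expNeg (traceInf K (algebraMap K (InfiniteAdeleRing K) (a * m * r))) = 1
  swap
  · push Not at ha
    obtain ⟨r', hr⟩ := ha
    rw [adeleFourier_pureSB_eq_zero h c hm hr, norm_zero]
    exact mul_nonneg (mul_nonneg NNReal.zero_le_coe hC₀) (weight_nonneg _)
  have hmK : (m : K) ≠ 0 := Nat.cast_ne_zero.2 hm
  set z : ℂ := starRingEnd ℂ ((stdChar K (𝐊 a * inFin K c) : Circle) : ℂ)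
  set g : CoordSpace K → ℂ := fun v => h v * starRingEnd ℂ ((expNeg ⟪v, traceVec a⟫ : Circle) : ℂ)
  have hgc : Continuous g := h.continuous.mul (Complex.continuous_conj.comp
    (continuous_subtype_val.comp (continuous_expNeg.comp (continuous_id.inner continuous_const))))
  have hpt : ∀ x, pureSB h c m x * starRingEnd ℂ ((stdChar K (𝐊 a * x) : Circle) : ℂ) =
      z * (finCoset c m).indicator (fun x : 𝐀 => g (coordE K x.1)) x := fun x => by
    by_cases hx : x ∈ finCoset c m
    swap
    · rw [pureSB, Set.indicator_of_notMem hx, Set.indicator_of_notMem hx, zero_mul, mul_zero]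
    rw [pureSB, Set.indicator_of_mem hx, Set.indicator_of_mem hx]
    have h1 : stdChar K (𝐊 a * inFin K (x.2 - c)) = 1 := by
      rw [show 𝐊 a * inFin K (x.2 - c) = 𝐊 (a * m) * inFin K (𝐅 (m : K)⁻¹ * (x.2 - c)) by
        rw [mul_inFin, mul_inFin, ← mul_assoc, ← map_mul, mul_inv_cancel_right₀ hmK]]
      exact stdChar_mul_inFin (fun r => ha r) hx
    have h2 : stdChar K (𝐊 a * x) =
        expNeg ⟪coordE K x.1, traceVec a⟫ * stdChar K (𝐊 a * inFin K c) := by
      conv_lhs => rw [← inInf_add_inFin x, ← sub_add_cancel x.2 c, map_add, mul_add, mul_add,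
        AddChar.map_add_eq_mul, AddChar.map_add_eq_mul, h1, one_mul, mul_inInf, stdChar_inInf,
        traceInf_eq_inner]
    simp only [g, z, h2, Circle.coe_mul, map_mul]
    ring
  have hint : adeleFourier μ (pureSB h c m) (𝐊 a) = z * ∫ v, g v ∂(r • (volume : Measure (CoordSpace K))) := by
    unfold adeleFourier
    rw [integral_congr_ae (Eventually.of_forall hpt), integral_const_mul,
      integral_indicator (isClopen_finCoset c m).isOpen.measurableSet, ← hρ,
      integral_map hcE.measurable.aemeasurable hgc.measurable.aestronglyMeasurable]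
  have hfour : ∫ v, g v = 𝓕 (h : CoordSpace K → ℂ) (-traceVec a) := by
    rw [Real.fourier_eq']
    refine integral_congr_ae (Eventually.of_forall fun v => ?_)
    simp only [g, inner_neg_right, smul_eq_mul, expNeg_apply, AddCircle.toCircle_apply_mk,
      Circle.coe_exp, ← Complex.exp_conj, map_mul, Complex.conj_ofReal, Complex.conj_I]
    rw [mul_comm]
    congr 2
    push_cast
    ring
  rw [hint, integral_smul_nnreal_measure, hfour, norm_mul,
    RCLike.norm_conj, Circle.norm_coe, one_mul, NNReal.smul_def, norm_smul,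
    Real.norm_of_nonneg NNReal.zero_le_coe, mul_assoc]
  refine mul_le_mul_of_nonneg_left ?_ NNReal.zero_le_coe
  rw [← SchwartzMap.fourier_coe]
  refine (hh _).trans_eq ?_
  unfold weight
  rw [norm_neg]

/-- The support of the transform is a translate-free lattice. -/
theorem summable_weight_traceVec {m : ℕ} (hm : m ≠ 0) :
    Summable ({a : K | ∀ r : 𝓞 K,
      expNeg (traceInf K (algebraMap K (InfiniteAdeleRing K) (a * m * r))) = 1}.indicator
        fun a => weight (traceVec a)) := by
  set S := {a : K | ∀ r : 𝓞 K,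
    expNeg (traceInf K (algebraMap K (InfiniteAdeleRing K) (a * m * r))) = 1}
  rw [← summable_subtype_iff_indicator]
  have hn : ∀ a : S, ∀ j, ∃ n : ℤ, ((Algebra.trace ℚ K (a.1 * integralBasis K j) : ℚ) : ℝ) =
      (n : ℝ) / m := fun a j => by
    obtain ⟨n, hn⟩ := expNeg_eq_one_iff.1 (a.2 (RingOfIntegers.basis K j))
    refine ⟨n, ?_⟩
    rw [eq_div_iff (Nat.cast_ne_zero.2 hm), hn, traceInf_algebraMap, integralBasis_apply,
      show a.1 * (m : K) * algebraMap (𝓞 K) K (RingOfIntegers.basis K j) =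
        (m : ℕ) • (a.1 * algebraMap (𝓞 K) K (RingOfIntegers.basis K j)) by
          rw [nsmul_eq_mul]; ring, map_nsmul]
    rw [nsmul_eq_mul]
    push_cast
    ring
  choose n hn using hn
  have hinj : Function.Injective n := fun a b hab => Subtype.ext (traceVec_injective (by
    unfold traceVec
    congr 1
    funext j
    rw [hn, hn, hab]))
  refine (((summable_weight (K := K)).comp_injective hinj).mul_left
    ((m : ℝ) ^ (2 * Fintype.card (Free.ChooseBasisIndex ℤ (𝓞 K))))).of_nonneg_of_le
    (fun a => weight_nonneg _) fun a => ?_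
  set N := 2 * Fintype.card (Free.ChooseBasisIndex ℤ (𝓞 K))
  have hv : (WithLp.toLp 2 fun j => (n a j : ℝ) : CoordSpace K) = (m : ℝ) • traceVec a.1 := by
    ext j
    show (n a j : ℝ) = (m : ℝ) * ((Algebra.trace ℚ K (a.1 * integralBasis K j) : ℚ) : ℝ)
    rw [hn, mul_div_cancel₀ _ (Nat.cast_ne_zero.2 hm)]
  show weight (traceVec a.1) ≤ (m : ℝ) ^ N * weight (WithLp.toLp 2 fun j => (n a j : ℝ) : CoordSpace K)
  rw [hv, weight, weight, norm_smul, Real.norm_natCast, ← div_eq_mul_inv, le_div_iff₀ (by positivity),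
    inv_mul_le_iff₀ (by positivity), mul_comm, ← mul_pow]
  refine pow_le_pow_left₀ (by positivity) ?_ _
  have hm1 : (1 : ℝ) ≤ m := Nat.one_le_cast.2 (Nat.pos_of_ne_zero hm)
  nlinarith [norm_nonneg (traceVec a.1)]

theorem summable_fourier_pureSB (h : 𝓢(CoordSpace K, ℂ))
    (c : FiniteAdeleRing (𝓞 K) K) {m : ℕ} (hm : m ≠ 0) :
    Summable fun a : K => ‖adeleFourier μ (pureSB h c m) (𝐊 a)‖ := by
  obtain ⟨C, hC, hb⟩ := adeleFourier_pureSB_bound (μ := μ) h c hm
  refine ((summable_weight_traceVec (K := K) hm).mul_left C).of_nonneg_of_le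
    (fun a => norm_nonneg _) fun a => ?_
  by_cases ha : ∀ r : 𝓞 K, expNeg (traceInf K (algebraMap K (InfiniteAdeleRing K) (a * m * r))) = 1
  · rw [Set.indicator_apply, if_pos (by exact ha)]
    exact hb a
  · rw [Set.indicator_apply, if_neg (by exact ha), mul_zero]
    push Not at ha
    obtain ⟨r, hr⟩ := ha
    rw [adeleFourier_pureSB_eq_zero h c hm hr, norm_zero]

/-- **Schwartz-Bruhat functions satisfy the hypotheses of the Poisson formula.** -/
theorem schwartzBruhat_props (hμ : μ (funDom K) = 1) {f : AdeleRing (𝓞 K) K → ℂ}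
    (hf : f ∈ schwartzBruhat K) :
    Continuous f ∧ NormallySummable f ∧ Summable fun a : K => ‖adeleFourier μ f (𝐊 a)‖ := by
  induction hf using Submodule.span_induction with
  | mem f hf =>
    obtain ⟨h, c, m, hm, rfl⟩ := hf
    exact ⟨continuous_pureSB h c m, normallySummable_pureSB h c hm,
      summable_fourier_pureSB h c hm⟩
  | zero =>
    refine ⟨continuous_const, fun C _ => ⟨0, summable_zero, fun x _ k => by simp⟩, ?_⟩
    simp [adeleFourier]
  | add f g _ _ hf hg =>
    refine ⟨hf.1.add hg.1, fun C hC => ?_, ?_⟩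
    · obtain ⟨u, hu, hu'⟩ := hf.2.1 C hC
      obtain ⟨v, hv, hv'⟩ := hg.2.1 C hC
      exact ⟨u + v, hu.add hv, fun x hx k =>
        (norm_add_le _ _).trans (add_le_add (hu' x hx k) (hv' x hx k))⟩
    · refine (hf.2.2.add hg.2.2).of_nonneg_of_le (fun a => norm_nonneg _) fun a => ?_
      have hi : ∀ {p : 𝐀 → ℂ}, Continuous p → NormallySummable p → Integrable
          (fun x => p x * starRingEnd ℂ ((stdChar K (𝐊 a * x) : Circle) : ℂ)) μ := fun hp hpn => by
        have hc : Continuous fun x : 𝐀 =>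
            starRingEnd ℂ ((stdChar K (𝐊 a * x) : Circle) : ℂ) := Complex.continuous_conj.comp
          (continuous_subtype_val.comp ((continuous_stdChar K).comp
            (continuous_const.mul continuous_id)))
        exact (integrable_of_normallySummable hμ hp hpn).mono
          (hp.mul hc).measurable.aestronglyMeasurable
          (Eventually.of_forall fun x => by rw [norm_mul, RCLike.norm_conj, Circle.norm_coe, mul_one])
      rw [show adeleFourier μ (f + g) (𝐊 a) = adeleFourier μ f (𝐊 a) + adeleFourier μ g (𝐊 a) by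
        simp only [adeleFourier, Pi.add_apply, add_mul]
        exact integral_add (hi hf.1 hf.2.1) (hi hg.1 hg.2.1)]
      exact norm_add_le _ _
  | smul s f _ hf =>
    refine ⟨hf.1.const_smul s, fun C hC => ?_, ?_⟩
    · obtain ⟨u, hu, hu'⟩ := hf.2.1 C hC
      exact ⟨fun k => ‖s‖ * u k, hu.mul_left _, fun x hx k => by
        rw [Pi.smul_apply, norm_smul]
        exact mul_le_mul_of_nonneg_left (hu' x hx k) (norm_nonneg s)⟩
    · refine (hf.2.2.mul_left ‖s‖).congr fun a => ?_
      simp only [adeleFourier, Pi.smul_apply, smul_eq_mul, mul_assoc, integral_const_mul, norm_mul]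

end FA.AdeleDual

end
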