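import Fermat.Agent.AdeleDuality.InfLocal
import Fermat.Agent.AdeleDuality.Local

/-!
# The self-duality of the adeles

A character of the adeles kills a multiple of the integral adeles, so its local multipliers are
almost all integral and form an adele.
-/

set_option autoImplicit false
set_option linter.unusedSectionVars false
set_option linter.style.haveILetI false

noncomputable section

open NumberField IsDedekindDomain
open Filter Topology Module
open WithZero
open FA.QuadFormsNF (valued_algebraMap)
open scoped Classical Real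

set_option maxHeartbeats 400000

namespace FA.AdeleDual

universe u

variable {K : Type u} [Field K] [NumberField K]

local notation "𝐀" => AdeleRing (𝓞 K) K
local notation "𝐊" => algebraMap K (AdeleRing (𝓞 K) K)

/-- The component at a prime. -/
def evalFin (v : HeightOneSpectrum (𝓞 K)) : FiniteAdeleRing (𝓞 K) K →+ v.adicCompletion K :=
  AddMonoidHom.mk' (fun a => a v) fun _ _ => rfl

theorem evalFin_apply (v : HeightOneSpectrum (𝓞 K)) (a : FiniteAdeleRing (𝓞 K) K) :
    evalFin v a = a v := rfl

theorem mul_singleFin (a : FiniteAdeleRing (𝓞 K) K) (v : HeightOneSpectrum (𝓞 K))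
    (z : v.adicCompletion K) : a * singleFin v z = singleFin v (a v * z) :=
  FiniteAdeleRing.ext _ fun u => by
    show a u * singleFin v z u = singleFin v (a v * z) u
    by_cases h : u = v
    · subst h
      rw [singleFin_self, singleFin_self]
    · rw [singleFin_of_ne h, singleFin_of_ne h, mul_zero]

theorem mul_inInf_single (a : 𝐀) (w : InfinitePlace K) (z : w.Completion) :
    a * inInf K (singleInf w z) = inInf K (singleInf w (a.1 w * z)) :=
  Prod.ext (mul_singleInf a.1 w z) (mul_zero a.2)

theorem mul_inFin_single (a : 𝐀) (v : HeightOneSpectrum (𝓞 K)) (z : v.adicCompletion K) :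
    a * inFin K (singleFin v z) = inFin K (singleFin v (a.2 v * z)) :=
  Prod.ext (mul_zero a.1) (mul_singleFin a.2 v z)

theorem stdChar_nondegenerate {a : 𝐀} (h : ∀ x, stdChar K (a * x) = 1) : a = 0 := by
  refine Prod.ext (funext fun w => infChar_nondegenerate fun z => ?_)
    (FiniteAdeleRing.ext _ fun v => finChar_nondegenerate fun z => ?_)
  · show stdChar K (inInf K (singleInf w (a.1 w * z))) = 1
    rw [← mul_inInf_single]
    exact h _
  · show stdChar K (inFin K (singleFin v (a.2 v * z))) = 1
    rw [← mul_inFin_single]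
    exact h _

theorem valued_eq_one_of_not_dvd {m : 𝓞 K} {v : HeightOneSpectrum (𝓞 K)}
    (hv : ¬v.asIdeal ∣ Ideal.span {m}) :
    Valued.v (algebraMap K (v.adicCompletion K) (m : K)) = 1 := by
  rw [valued_algebraMap]
  exact (v.valuation_of_algebraMap m).trans (le_antisymm (v.intValuation_le_one m)
    (not_lt.1 fun h => hv ((v.intValuation_lt_one_iff_dvd m).1 h)))

/-- A character is trivial if it is so at each place. -/
theorem eq_one_of_singles {ξ : AddChar 𝐀 Circle} (hc : Continuous ξ)
    (hinf : ∀ y, ξ (inInf K y) = 1)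
    (hfin : ∀ (v : HeightOneSpectrum (𝓞 K)) z, ξ (inFin K (singleFin v z)) = 1) (x : 𝐀) :
    ξ x = 1 := by
  rw [← inInf_add_inFin x, AddChar.map_add_eq_mul, hinf, one_mul]
  obtain ⟨m, hm, hkill⟩ := exists_kills hc
  have hmK : (m : K) ≠ 0 := RingOfIntegers.coe_ne_zero_iff.2 hm
  have hfac : {v : HeightOneSpectrum (𝓞 K) | v.asIdeal ∣ Ideal.span {m}}.Finite :=
    Ideal.finite_factors (by rwa [Ne, Ideal.zero_eq_bot, Ideal.span_singleton_eq_bot])
  set S := (finite_not_integral x.2).toFinset ∪ hfac.toFinset with hS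
  set rest := x.2 - ∑ v ∈ S, singleFin v (x.2 v) with hrest
  have heval : ∀ u, rest u = if u ∈ S then 0 else x.2 u := fun u => by
    rw [← evalFin_apply u rest, hrest, map_sub, map_sum, evalFin_apply]
    split_ifs with hu
    · rw [Finset.sum_eq_single u (fun v _ hv => by
        rw [evalFin_apply, singleFin_of_ne (Ne.symm hv)]) fun h => absurd hu h, evalFin_apply,
        singleFin_self, sub_self]
    · rw [Finset.sum_eq_zero fun v hv => by
        rw [evalFin_apply, singleFin_of_ne (ne_of_mem_of_not_mem hv hu).symm], sub_zero]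
  set u := algebraMap K (FiniteAdeleRing (𝓞 K) K) (m : K)⁻¹ * rest
  have hu : u ∈ finInt K := mem_finInt.2 fun v => by
    show Valued.v (algebraMap K (v.adicCompletion K) (m : K)⁻¹ * rest v) ≤ 1
    rw [heval]
    split_ifs with hv
    · rw [mul_zero, map_zero]
      exact zero_le_one
    · rw [hS, Finset.mem_union, Set.Finite.mem_toFinset, Set.Finite.mem_toFinset, not_or] at hv
      rw [map_mul, map_inv₀, map_inv₀, valued_eq_one_of_not_dvd hv.2, inv_one, one_mul]
      exact (HeightOneSpectrum.mem_adicCompletionIntegers (𝓞 K) K v).1 (not_not.1 hv.1)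
  have e : rest = algebraMap K (FiniteAdeleRing (𝓞 K) K) (m : K) * u := by
    rw [← mul_assoc, ← map_mul, mul_inv_cancel₀ hmK, map_one, one_mul]
  rw [show x.2 = (∑ v ∈ S, singleFin v (x.2 v)) + rest by rw [hrest, add_sub_cancel], e, map_add,
    AddChar.map_add_eq_mul, hkill u hu, mul_one, map_sum, addChar_sum]
  exact Finset.prod_eq_one fun v _ => hfin v _

/-- **Every character of the adeles is a multiple of the standard one.** -/
theorem exists_eq_stdChar {χ : AddChar 𝐀 Circle} (hc : Continuous χ) :
    ∃ a : 𝐀, ∀ x, χ x = stdChar K (a * x) := by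
  obtain ⟨β, hβ⟩ := exists_eq_expNeg_mul (f := χ.compAddMonoidHom (inInf K))
    (hc.comp continuous_inInf)
  have hloc : ∀ v : HeightOneSpectrum (𝓞 K), ∃ a : v.adicCompletion K, ∀ z,
      χ (inFin K (singleFin v z)) = finChar v (a * z) := fun v =>
    exists_eq_finChar (χ := χ.compAddMonoidHom ((inFin K).comp (singleFin v)))
      (hc.comp (continuous_inFin.comp (continuous_singleFin v)))
  choose a ha using hloc
  obtain ⟨S, hS, hSn⟩ := exists_finite_bad K
  obtain ⟨m, hm, hkill⟩ := exists_kills hc
  have hfac : {v : HeightOneSpectrum (𝓞 K) | v.asIdeal ∣ Ideal.span {m}}.Finite :=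
    Ideal.finite_factors (by rwa [Ne, Ideal.zero_eq_bot, Ideal.span_singleton_eq_bot])
  have hev : ∀ᶠ v in Filter.cofinite, a v ∈ v.adicCompletionIntegers K := by
    refine Filter.eventually_cofinite.2 ((hS.union hfac).subset fun v hv => ?_)
    by_contra hv'
    rw [Set.mem_union, not_or] at hv'
    refine hv ((HeightOneSpectrum.mem_adicCompletionIntegers (𝓞 K) K v).2 (not_lt.1 fun hlt => ?_))
    have h0 : Valued.v (a v) ≠ 0 := fun h => by rw [h] at hlt; exact not_lt_zero hlt
    have hn : 0 < log (Valued.v (a v)) := by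
      rw [← exp_lt_exp, exp_zero, exp_log h0]
      exact hlt
    refine absurd (hSn v hv'.1 _ fun y hy => ?_) (not_le.2 hn)
    rw [exp_log h0] at hy
    have ha0 : a v ≠ 0 := (Valuation.ne_zero_iff _).1 h0
    have hz : Valued.v (y / a v) ≤ 1 := by
      rw [map_div₀]
      exact div_le_one_of_le₀ hy zero_le
    set z := y / a v with hz'
    set c := algebraMap K (v.adicCompletion K) (m : K)
    have hc0 : c ≠ 0 := (map_ne_zero _).2 (RingOfIntegers.coe_ne_zero_iff.2 hm)
    rw [show y = a v * z from (mul_div_cancel₀ y ha0).symm, ← ha]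
    have hint : Valued.v (c⁻¹ * z) ≤ 1 := by
      rw [map_mul, map_inv₀, valued_eq_one_of_not_dvd hv'.2, inv_one, one_mul]
      exact hz
    have h1 := hkill _ (singleFin_mem hint)
    rwa [mul_singleFin, show algebraMap K (FiniteAdeleRing (𝓞 K) K) (m : K) v = c from rfl,
      mul_inv_cancel_left₀ hc0] at h1
  set b : 𝐀 := (β, (⟨a, hev⟩ : RestrictedProduct (fun v : HeightOneSpectrum (𝓞 K) =>
    v.adicCompletion K) (fun v => (v.adicCompletionIntegers K : Set (v.adicCompletion K)))
      Filter.cofinite)) with hb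
  refine ⟨b, fun x => ?_⟩
  let ξ : AddChar 𝐀 Circle := χ / (stdChar K).compAddMonoidHom (AddMonoidHom.mulLeft b)
  have hξ : ∀ y, ξ y = χ y / stdChar K (b * y) := fun y => AddChar.div_apply' _ _ y
  have hξc : Continuous ξ :=
    (hc.div' ((continuous_stdChar K).comp (continuous_const.mul continuous_id))).congr
      fun y => (hξ y).symm
  have h1 := eq_one_of_singles hξc (fun y => ?_) (fun v z => ?_) x
  · rwa [hξ, div_eq_one] at h1
  · rw [hξ, div_eq_one, show b * inInf K y = inInf K (β * y) from Prod.ext rfl (mul_zero b.2),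
      stdChar_inInf]
    exact hβ y
  · rw [hξ, div_eq_one, mul_inFin_single, ← finChar_apply]
    exact ha v z

variable (K) in
theorem adelePair_bijective : Function.Bijective (pairHom (stdChar K) (continuous_stdChar K)) :=
  pairHom_bijective _ (fun _ h => stdChar_nondegenerate h) fun _ hc => exists_eq_stdChar hc

variable (K) in
theorem locallyCompact_adele : LocallyCompactSpace 𝐀 := by
  obtain ⟨C, hC, hC0⟩ := exists_compact_mem_nhds (0 : InfiniteAdeleRing K)
  exact ((hC.prod (isCompact_finInt K)) : IsCompact (X := 𝐀)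
    (C ×ˢ (finInt K : Set (FiniteAdeleRing (𝓞 K) K)))).locallyCompactSpace_of_mem_nhds_of_addGroup
      (x := (0 : 𝐀)) (prod_mem_nhds hC0 ((isOpen_finInt K).mem_nhds (zero_mem _)))

variable (K) in
theorem sigmaCompact_adele : SigmaCompactSpace 𝐀 := by
  haveI : Countable K := Countable.of_equiv _ (integralBasis K).repr.toEquiv.symm
  set B : K × ℕ → Set 𝐀 := fun p => (fun q : (Free.ChooseBasisIndex ℤ (𝓞 K) → ℝ) ×
    FiniteAdeleRing (𝓞 K) K => 𝐊 p.1 + (inInf K (fromCoord K q.1) + inFin K q.2)) ''
      (Metric.closedBall 0 p.2 ×ˢ (finInt K : Set (FiniteAdeleRing (𝓞 K) K)))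
  refine SigmaCompactSpace.of_countable (Set.range B) (Set.countable_range _) ?_
    (Set.eq_univ_of_forall fun x => ?_)
  · rintro _ ⟨p, rfl⟩
    exact ((isCompact_closedBall _ _).prod (isCompact_finInt K)).image
      (continuous_const.add ((continuous_inInf.comp (continuous_fromCoord.comp continuous_fst)).add
        (continuous_inFin.comp continuous_snd)))
  · obtain ⟨k, hk⟩ := exists_sub_mem x.2
    set t := coord (x.1 - algebraMap K (InfiniteAdeleRing K) k)
    refine Set.mem_sUnion.2 ⟨_, ⟨(k, ⌈‖t‖⌉₊), rfl⟩, ⟨(t, x.2 - algebraMap K _ k),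
      ⟨mem_closedBall_zero_iff.2 (Nat.le_ceil _), hk⟩, ?_⟩⟩
    show 𝐊 k + (inInf K (fromCoord K t) + inFin K (x.2 - algebraMap K _ k)) = x
    rw [fromCoord_coord, show inInf K (x.1 - algebraMap K (InfiniteAdeleRing K) k) +
      inFin K (x.2 - algebraMap K (FiniteAdeleRing (𝓞 K) K) k) = x - 𝐊 k from
        inInf_add_inFin (x - 𝐊 k), add_sub_cancel]

variable (K) in
/-- **The adeles are their own dual.** -/
def adeleSelfDual : Multiplicative 𝐀 ≃ₜ* PontryaginDual (Multiplicative 𝐀) :=
  haveI := sigmaCompact_adele K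
  haveI := locallyCompact_adele K
  selfDual (continuous_stdChar K) (adelePair_bijective K)

/-- **The field is its own annihilator.** -/
theorem forall_stdChar_eq_one_iff {a : 𝐀} :
    (∀ k : K, stdChar K (a * 𝐊 k) = 1) ↔ ∃ c : K, 𝐊 c = a := by
  refine ⟨fun h => ?_, fun ⟨c, hc⟩ k => by rw [← hc, ← map_mul, stdChar_algebraMap]⟩
  let χ : AddChar 𝐀 Circle :=
    { toFun := fun x => stdChar K (a * x)
      map_zero_eq_one' := by rw [mul_zero, AddChar.map_zero_eq_one]
      map_add_eq_mul' := fun x y => by rw [mul_add, AddChar.map_add_eq_mul] }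
  have hcont : Continuous χ := (continuous_stdChar K).comp (continuous_const.mul continuous_id)
  obtain ⟨c, hc, -⟩ := exists_unique_eq_stdChar (χ := χ) hcont h
  refine ⟨c, (sub_eq_zero.1 (stdChar_nondegenerate fun x => ?_)).symm⟩
  have h1 : stdChar K (a * x) = stdChar K (𝐊 c * x) := hc x
  rw [sub_mul, AddChar.map_sub_eq_div, h1, div_self']

end FA.AdeleDual

end
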