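import Fermat.Agent.AdeleDuality.SelfDual

/-!
# The strong approximation theorem

The closure of the image of one completion in the compact group of adele classes is killed only by
the trivial character, the local character being nondegenerate.
-/

set_option autoImplicit false
set_option linter.unusedSectionVars false
set_option linter.style.haveILetI false

noncomputable section

open NumberField IsDedekindDomain
open Filter Topology Module
open WithZero
open FA.ArtinRec (unif valuation_eq_exp ord_unif)
open FA.QuadFormsNF (valued_algebraMap)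
open scoped Classical Real

set_option maxHeartbeats 400000

namespace FA.AdeleDual

universe u

variable {K : Type u} [Field K] [NumberField K]

local notation "𝐀" => AdeleRing (𝓞 K) K
local notation "𝐊" => algebraMap K (AdeleRing (𝓞 K) K)

/-- **The field and a subgroup with nondegenerate pairing are dense together.** -/
theorem dense_add {R : Type*} [AddCommGroup R] (ι : R →+ 𝐀)
    (hnd : ∀ a : K, (∀ z, stdChar K (𝐊 a * ι z) = 1) → a = 0) :
    Dense (Set.range fun p : K × R => 𝐊 p.1 + ι p.2) := by
  set G := Multiplicative (𝐀 ⧸ principalAdeles K)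
  let f : Multiplicative R →* G :=
    AddMonoidHom.toMultiplicative ((QuotientAddGroup.mk' (principalAdeles K)).comp ι)
  have htop : f.range.topologicalClosure = ⊤ := by
    refine (Subgroup.eq_top_iff' _).2 fun g => ?_
    by_contra hg
    obtain ⟨φ, hφ, hne⟩ :=
      CompactAbelian.exists_dual_of_notMem f.range.isClosed_topologicalClosure hg
    obtain ⟨a, rfl⟩ := classCharHom_bijective.2 φ
    refine hne ?_
    rw [show a = 1 from Multiplicative.toAdd.injective (hnd a.toAdd fun z =>
      hφ _ (f.range.le_topologicalClosure ⟨Multiplicative.ofAdd z, rfl⟩)), map_one,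
      PontryaginDual.one_apply]
  have hd : Dense ((QuotientAddGroup.mk : 𝐀 → 𝐀 ⧸ principalAdeles K) '' Set.range ι) := fun q => by
    have h1 := htop.ge (Subgroup.mem_top (Multiplicative.ofAdd q))
    rw [← Set.range_comp]
    exact h1
  refine (hd.preimage QuotientAddGroup.isOpenMap_coe).mono ?_
  rintro x ⟨_, ⟨z, rfl⟩, hz⟩
  obtain ⟨k, hk⟩ := mem_principalAdeles.1 (QuotientAddGroup.eq.1 hz)
  refine ⟨(k, z), ?_⟩
  show 𝐊 k + ι z = x
  rw [hk]
  abel

/-- **At a prime.** -/
theorem dense_add_finite (v : HeightOneSpectrum (𝓞 K)) :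
    Dense (Set.range fun p : K × v.adicCompletion K => 𝐊 p.1 + inFin K (singleFin v p.2)) :=
  dense_add ((inFin K).comp (singleFin v)) fun a ha =>
    (map_eq_zero (algebraMap K (v.adicCompletion K))).1 (finChar_nondegenerate fun z => by
      rw [finChar_apply]
      refine Eq.trans ?_ (ha z)
      rw [AddMonoidHom.comp_apply, mul_inFin_single]
      rfl)

/-- **At an infinite place.** -/
theorem dense_add_infinite (w : InfinitePlace K) :
    Dense (Set.range fun p : K × w.Completion => 𝐊 p.1 + inInf K (singleInf w p.2)) :=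
  dense_add ((inInf K).comp (singleInf w)) fun a ha =>
    (map_eq_zero (algebraMap K w.Completion)).1 (infChar_nondegenerate fun z => by
      refine Eq.trans ?_ (ha z)
      rw [AddMonoidHom.comp_apply, mul_inInf_single]
      rfl)

theorem isOpen_ball (v : HeightOneSpectrum (𝓞 K)) (n : ℤ) :
    IsOpen (ball v n : Set (v.adicCompletion K)) := by
  have hc : Valued.v (algebraMap K (v.adicCompletion K) ((unif v : K) ^ (-n))) = exp n := by
    rw [valued_algebraMap, map_zpow₀, valuation_eq_exp, ord_unif, ← exp_zsmul]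
    simp
  set c := algebraMap K (v.adicCompletion K) ((unif v : K) ^ (-n))
  rw [show (ball v n : Set (v.adicCompletion K)) =
    (c⁻¹ * ·) ⁻¹' (v.adicCompletionIntegers K : Set (v.adicCompletion K)) from Set.ext fun z => ?_]
  · exact (Valued.isOpen_valuationSubring (v.adicCompletion K)).preimage
      (continuous_const.mul continuous_id)
  · rw [SetLike.mem_coe, mem_ball, Set.mem_preimage, SetLike.mem_coe,
      HeightOneSpectrum.mem_adicCompletionIntegers, map_mul, map_inv₀, hc,
      inv_mul_le_one₀ (by exact exp_pos)]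

/-- **Approximation outside a set of places.** -/
theorem exists_approx {R : Type*} (ι : R → 𝐀) (P : Set (HeightOneSpectrum (𝓞 K)))
    (Q : Set (InfinitePlace K)) (hP : ∀ z, ∀ v ∉ P, (ι z).2 v = 0)
    (hQ : ∀ z, ∀ w ∉ Q, (ι z).1 w = 0)
    (hd : Dense (Set.range fun p : K × R => 𝐊 p.1 + ι p.2))
    {S : Finset (HeightOneSpectrum (𝓞 K))} (hS : ∀ v ∈ S, v ∉ P)
    (z : ∀ v : HeightOneSpectrum (𝓞 K), v.adicCompletion K) (n : ℕ) (y : InfiniteAdeleRing K)
    {ε : ℝ} (hε : 0 < ε) :
    ∃ x : K, (∀ v ∈ S, Valued.v (algebraMap K (v.adicCompletion K) x - z v) ≤ exp (-(n : ℤ))) ∧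
      (∀ v, v ∉ S → v ∉ P → v.valuation K x ≤ 1) ∧
      ∀ w ∉ Q, ‖algebraMap K w.Completion x - y w‖ < ε := by
  set U : Set 𝐀 := (⋂ v ∈ S, (fun a : 𝐀 => a.2 v - z v) ⁻¹' (ball v (-(n : ℤ)) : Set _)) ∩
    ({a : 𝐀 | ∀ v, v ∉ S ∧ v ∉ P → a.2 v ∈ v.adicCompletionIntegers K} ∩
      ⋂ w : InfinitePlace K, {a : 𝐀 | ‖a.1 w - y w‖ < ε})
  have hU : IsOpen U := (isOpen_biInter_finset fun v _ =>
      (isOpen_ball v _).preimage ((Ideles.continuous_finComp v).sub continuous_const)).inter
    (((RestrictedProduct.isOpen_forall_imp_mem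
      (fun v => Valued.isOpen_valuationSubring (v.adicCompletion K))
        (p := fun v => v ∉ S ∧ v ∉ P)).preimage continuous_snd).inter
      (isOpen_iInter_of_finite fun w =>
        isOpen_lt ((Ideles.continuous_infComp w).sub continuous_const).norm continuous_const))
  have hne : U.Nonempty := by
    refine ⟨inInf K y + inFin K (∑ v ∈ S, singleFin v (z v)), ?_⟩
    have e2 : ∀ u, (inInf K y + inFin K (∑ v ∈ S, singleFin v (z v))).2 u =
        if u ∈ S then z u else 0 := fun u => by
      rw [show (inInf K y + inFin K (∑ v ∈ S, singleFin v (z v))).2 =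
        ∑ v ∈ S, singleFin v (z v) from zero_add _, ← evalFin_apply u, map_sum]
      split_ifs with hu
      · rw [Finset.sum_eq_single u (fun v _ hv => by
          rw [evalFin_apply, singleFin_of_ne (Ne.symm hv)]) fun h => absurd hu h, evalFin_apply,
          singleFin_self]
      · rw [Finset.sum_eq_zero fun v hv => by
          rw [evalFin_apply, singleFin_of_ne (ne_of_mem_of_not_mem hv hu).symm]]
    refine ⟨Set.mem_iInter₂.2 fun v hv => ?_, fun v hv => ?_, Set.mem_iInter.2 fun w => ?_⟩
    · show _ - z v ∈ ball v (-(n : ℤ))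
      rw [e2, if_pos hv, sub_self]
      exact zero_mem _
    · rw [e2, if_neg hv.1]
      exact zero_mem _
    · show ‖(inInf K y + inFin K _).1 w - y w‖ < ε
      rw [show (inInf K y + inFin K (∑ v ∈ S, singleFin v (z v))).1 = y from add_zero y, sub_self,
        norm_zero]
      exact hε
  obtain ⟨_, ⟨h1, h2, h3⟩, ⟨x, r⟩, rfl⟩ := hd.inter_open_nonempty U hU hne
  have ef : ∀ v ∉ P, (𝐊 x + ι r).2 v = algebraMap K (v.adicCompletion K) x := fun v hv => by
    show algebraMap K (v.adicCompletion K) x + (ι r).2 v = _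
    rw [hP r v hv, add_zero]
  refine ⟨x, fun v hv => ?_, fun v hv hv' => ?_, fun w hw => ?_⟩
  · have h := Set.mem_iInter₂.1 h1 v hv
    rw [Set.mem_preimage, SetLike.mem_coe, mem_ball, ef v (hS v hv)] at h
    exact h
  · have h := h2 v ⟨hv, hv'⟩
    rw [ef v hv', HeightOneSpectrum.mem_adicCompletionIntegers, valued_algebraMap] at h
    exact h
  · have h : ‖(𝐊 x + ι r).1 w - y w‖ < ε := Set.mem_iInter.1 h3 w
    rwa [show (𝐊 x + ι r).1 w = algebraMap K w.Completion x + (ι r).1 w from rfl, hQ r w hw,
      add_zero] at h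

end FA.AdeleDual

end
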